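import Fermat.Agent.S44.Old.Fin
import Fermat.Agent.S19.Geo0.Inst
import Fermat.Agent.S54.Frobenius
import Fermat.Agent.S55.Places.Residue

/-!
# S44 / Old / SmallOrbQ : the arithmetic hypothesis `SmallOrb` of `Old/Fin.lean` for `K = ℚ̄`, `Γ = Gal(ℚ̄ / L)`, `L / ℚ` finite  (helper82)

No degrees of number fields: a power `τ` of a Frobenius element at `A` lies in `Γ` and induces `x ↦ x ^ q` on the residue field.  If the `Γ`-orbit of `c ∈ A` has at most `n`
elements then `τ ^ d c = c` for some `1 ≤ d ≤ n`, so `r = res c` satisfies `r ^ (q ^ d) = r`, hence `r ^ (q ^ n!) = r`: finitely many `r`.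
-/

set_option autoImplicit false
set_option linter.unusedSectionVars false

open AlgebraicCurve ModularCurve

namespace Fermat.Agent.S44.Old

open Fermat.Agent.ES (Qb GQ FF)
open Fermat.Agent.S37.Mod Fermat.Agent.S37.Red Fermat.Agent.S19.Geo0

/-- iterating an automorphism which induces `x ↦ x ^ q`. -/
theorem SmallOrbQ_iter {A : ValuationSubring Qb} (τ : GQ) (q : ℕ)
    (hτ : ∀ a ∈ A, τ a ∈ A ∧
      res (IsLocalRing.residue A) (τ a) = res (IsLocalRing.residue A) a ^ q) (N : ℕ) :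
    ∀ a ∈ A, (τ ^ N) a ∈ A ∧
      res (IsLocalRing.residue A) ((τ ^ N) a) = res (IsLocalRing.residue A) a ^ (q ^ N) := by
  induction N with
  | zero =>
    intro a ha
    simpa using ha
  | succ N ih =>
    intro a ha
    obtain ⟨h1, h2⟩ := ih a ha
    obtain ⟨h3, h4⟩ := hτ _ h1
    have e : (τ ^ (N + 1)) a = τ ((τ ^ N) a) := by
      rw [pow_succ', AlgEquiv.mul_apply]
    rw [e]
    exact ⟨h3, by rw [h4, h2, ← pow_mul, pow_succ]⟩

/-- A power of a Frobenius element at `A` lies in `Gal(ℚ̄ / L)`. -/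
theorem exists_frob_pow (p : ℕ) (hp : p.Prime) (A : ValuationSubring Qb) (hA : A.LiesOverPrime p)
    (L : IntermediateField ℚ Qb) [FiniteDimensional ℚ L] :
    ∃ (τ : GQ) (q : ℕ), 2 ≤ q ∧ τ ∈ L.fixingSubgroup ∧ ∀ a ∈ A, τ a ∈ A ∧
      res (IsLocalRing.residue A) (τ a) = res (IsLocalRing.residue A) a ^ q := by
  obtain ⟨φ, hdec, hφ⟩ := Fermat.Agent.S54.exists_isFrobeniusAt p hp A hA
  obtain ⟨m, hm, hmL⟩ := Fermat.Agent.S55.Places.residue_exists_pow_mem_fixingSubgroup L φ
  have h1 : ∀ a ∈ A, φ a ∈ A ∧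
      res (IsLocalRing.residue A) (φ a) = res (IsLocalRing.residue A) a ^ p := by
    intro a ha
    have hmem : φ a ∈ A := ((⟨φ, hdec⟩ : A.decompositionSubgroup ℚ) • (⟨a, ha⟩ : A)).2
    refine ⟨hmem, ?_⟩
    have h2 := hφ (IsLocalRing.residue A ⟨a, ha⟩)
    rw [← IsLocalRing.ResidueField.residue_smul] at h2
    rw [res, res, dif_pos hmem, dif_pos ha]
    exact h2
  refine ⟨φ ^ m, p ^ m, ?_, hmL, SmallOrbQ_iter φ p h1 m⟩
  exact le_trans hp.two_le (Nat.le_self_pow hm.ne' p)

/-- `x ^ Q = x ⟹ x ^ (Q ^ t) = x`. -/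
theorem SmallOrbQ_pow_pow {k : Type*} [Monoid k] {x : k} {Q : ℕ} (h : x ^ Q = x) (t : ℕ) :
    x ^ (Q ^ t) = x := by
  induction t with
  | zero => simp
  | succ t ih => rw [pow_succ, pow_mul, ih, h]

/-- the solutions of `r ^ m = r` are finite in number (`m ≥ 2`). -/
theorem SmallOrbQ_finite {k : Type*} [Field k] {m : ℕ} (hm : 2 ≤ m) : {r : k | r ^ m = r}.Finite := by
  classical
  have hne : (Polynomial.X ^ m - Polynomial.X : Polynomial k) ≠ 0 := by
    intro h
    have h1 := congrArg (fun P => Polynomial.coeff P m) h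
    simp only [Polynomial.coeff_sub, Polynomial.coeff_X_pow, if_true, Polynomial.coeff_zero] at h1
    rw [Polynomial.coeff_X, if_neg (by omega), sub_zero] at h1
    exact one_ne_zero h1
  refine (Polynomial.X ^ m - Polynomial.X : Polynomial k).roots.toFinset.finite_toSet.subset ?_
  intro r hr
  have hr : r ^ m = r := hr
  rw [Finset.mem_coe, Multiset.mem_toFinset, Polynomial.mem_roots hne, Polynomial.IsRoot.def]
  simp [hr]

/-- **`SmallOrb` for `Gal(ℚ̄ / L)`.** -/
theorem smallOrb_fixingSubgroup (M p : ℕ) (hp : p.Prime) (A : ValuationSubring Qb)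
    (hA : A.LiesOverPrime p) (L : IntermediateField ℚ Qb) [FiniteDimensional ℚ L] :
    SmallOrb (IsLocalRing.residue A)
      ((arithmeticGalois (L := Qb) (modularFunctionFieldFull M)).comp L.fixingSubgroup.subtype) := by
  obtain ⟨τ, q, hq, hτL, hτ⟩ := exists_frob_pow p hp A hA L
  intro n
  refine (SmallOrbQ_finite (k := kA A) (m := q ^ n.factorial)
    (le_trans hq (Nat.le_self_pow (Nat.factorial_ne_zero n) q))).subset ?_
  rintro r ⟨c, s, hc, rfl, hs, horb⟩
  show res (IsLocalRing.residue A) c ^ (q ^ n.factorial) = res (IsLocalRing.residue A) c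
  have hmem : ∀ i : ℕ, (τ ^ i) c ∈ s := fun i => horb ⟨τ ^ i, pow_mem hτL i⟩
  obtain ⟨i, hi, j, hj, hij, he⟩ := Finset.exists_ne_map_eq_of_card_lt_of_maps_to
    (s := Finset.range (n + 1)) (t := s) (f := fun i => (τ ^ i) c)
    (by rw [Finset.card_range]; omega) (fun i _ => hmem i)
  have key : ∀ i j : ℕ, i < j → j ≤ n → (τ ^ i) c = (τ ^ j) c →
      res (IsLocalRing.residue A) c ^ (q ^ n.factorial) = res (IsLocalRing.residue A) c := by
    intro i j hij hj he
    have h1 : (τ ^ (j - i)) c = c := by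
      have h2 : (τ ^ j) c = (τ ^ i) ((τ ^ (j - i)) c) := by
        rw [← AlgEquiv.mul_apply, ← pow_add]
        congr 2
        omega
      rw [h2] at he
      exact ((τ ^ i).injective he).symm
    have h3 := (SmallOrbQ_iter τ q hτ (j - i) c hc).2
    rw [h1] at h3
    obtain ⟨t, ht⟩ : (j - i) ∣ n.factorial := Nat.dvd_factorial (by omega) (by omega)
    rw [ht, pow_mul]
    exact SmallOrbQ_pow_pow h3.symm t
  rw [Finset.mem_range] at hi hj
  rcases lt_or_gt_of_ne hij with h | h
  · exact key i j h (by omega) he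
  · exact key j i h (by omega) he.symm

end Fermat.Agent.S44.Old
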