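import Fermat.Agent.S44.Old.Fin
import Fermat.Agent.S44.Old.SmallOrbQ
import Fermat.Agent.S37.Mod.Inst

/-!
# S44 / Old / FinQ : the arithmetic hypothesis `SmallOrb` for `K = ℚ̄`, `Γ = Gal(ℚ̄ / L)`, `L` a number field
-/

set_option autoImplicit false

open AlgebraicCurve ModularCurve

namespace Fermat.Agent.S44.Old

open Fermat.Agent.ES (Qb GQ FF)
open Fermat.Agent.S37.Mod (kA)
open Fermat.Agent.S37.Red (res)

noncomputable section

open Polynomial IntermediateField in
theorem FinQ_a_natDegree_minpoly_le (L : IntermediateField ℚ Qb) [FiniteDimensional ℚ L] (c : Qb)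
    (s : Finset Qb) (hs : ∀ σ ∈ L.fixingSubgroup, σ c ∈ s) :
    (minpoly ℚ c).natDegree ≤ s.card * Module.finrank ℚ L := by
  classical
  have hcl : IsAlgClosure ℚ Qb :=
    (inferInstance : @IsAlgClosure ℚ (AlgebraicClosure ℚ) _ _ (AlgebraicClosure.instAlgebra ℚ) _)
  have hgal : IsGalois ℚ Qb := inferInstance
  have hintQ : IsIntegral ℚ c := Algebra.IsIntegral.isIntegral c
  have hintL : IsIntegral L c := hintQ.tower_top
  -- the orbit
  set T : Finset Qb := s.filter (fun x => ∃ σ ∈ L.fixingSubgroup, σ c = x) with hT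
  have hcT : c ∈ T := Finset.mem_filter.2 ⟨hs 1 (one_mem _), 1, one_mem _, rfl⟩
  have hstab : ∀ τ ∈ L.fixingSubgroup, ∀ x ∈ T, τ x ∈ T := by
    intro τ hτ x hx
    obtain ⟨σ, hσ, rfl⟩ := (Finset.mem_filter.1 hx).2
    exact Finset.mem_filter.2 ⟨hs (τ * σ) (mul_mem hτ hσ), τ * σ, mul_mem hτ hσ, rfl⟩
  have himage : ∀ τ ∈ L.fixingSubgroup, T.image τ = T := by
    intro τ hτ
    refine Finset.eq_of_subset_of_card_le ?_ ?_
    · intro y hy
      obtain ⟨x, hx, rfl⟩ := Finset.mem_image.1 hy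
      exact hstab τ hτ x hx
    · rw [Finset.card_image_of_injective _ τ.injective]
  set f : Qb[X] := ∏ x ∈ T, (X - C x) with hf
  have hfm : f.Monic := monic_prod_of_monic _ _ fun x _ => monic_X_sub_C x
  have hfdeg : f.natDegree = T.card := by
    rw [hf, natDegree_prod_of_monic _ _ fun x _ => monic_X_sub_C x]
    simp
  have hfmap : ∀ τ ∈ L.fixingSubgroup, f.map (τ : Qb ≃ₐ[ℚ] Qb).toRingEquiv.toRingHom = f := by
    intro τ hτ
    rw [hf, Polynomial.map_prod]
    conv_rhs => rw [← himage τ hτ]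
    rw [Finset.prod_image fun x _ y _ h => τ.injective h]
    refine Finset.prod_congr rfl fun x _ => ?_
    simp
  have hlift : f ∈ lifts (algebraMap L Qb) := by
    rw [lifts_iff_coeff_lifts]
    intro n
    have h1 : f.coeff n ∈ IntermediateField.fixedField L.fixingSubgroup := by
      rw [IntermediateField.mem_fixedField_iff]
      intro τ hτ
      conv_rhs => rw [← hfmap τ hτ]
      rw [coeff_map]
      rfl
    rw [InfiniteGalois.fixedField_fixingSubgroup] at h1
    exact ⟨⟨_, h1⟩, rfl⟩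
  obtain ⟨g, hg, hgdeg, hgm⟩ := lifts_and_natDegree_eq_and_monic hlift hfm
  have hroot : aeval c g = 0 := by
    rw [aeval_def, ← eval_map, hg, hf, eval_prod]
    exact Finset.prod_eq_zero hcT (by simp)
  have hdegL : (minpoly L c).natDegree ≤ s.card := by
    calc (minpoly L c).natDegree ≤ g.natDegree :=
          natDegree_le_of_dvd (minpoly.dvd L c hroot) hgm.ne_zero
      _ = T.card := by rw [hgdeg, hfdeg]
      _ ≤ s.card := Finset.card_le_card (Finset.filter_subset _ _)
  have hfd1 : FiniteDimensional L L⟮c⟯ := IntermediateField.adjoin.finiteDimensional hintL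
  have hfd2 : FiniteDimensional ℚ L⟮c⟯ := Module.Finite.trans L L⟮c⟯
  have h1 : minpoly ℚ c = minpoly ℚ (AdjoinSimple.gen L c) := by
    have := minpoly.algebraMap_eq (A := ℚ) (B := L⟮c⟯) (B' := Qb) (algebraMap L⟮c⟯ Qb).injective (AdjoinSimple.gen L c)
    rw [← this]
    rfl
  calc (minpoly ℚ c).natDegree = (minpoly ℚ (AdjoinSimple.gen L c)).natDegree := by rw [h1]
    _ ≤ Module.finrank ℚ L⟮c⟯ := minpoly.natDegree_le _
    _ = Module.finrank ℚ L * Module.finrank L L⟮c⟯ := (Module.finrank_mul_finrank ℚ L L⟮c⟯).symm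
    _ = Module.finrank ℚ L * (minpoly L c).natDegree := by rw [IntermediateField.adjoin.finrank hintL]
    _ ≤ Module.finrank ℚ L * s.card := Nat.mul_le_mul_left _ hdegL
    _ = s.card * Module.finrank ℚ L := Nat.mul_comm _ _

/-- TASK S44/Old-FinQ-a (Mathlib only).  `c` has at most `|s|` conjugates over `L`, so `[ℚ(c) : ℚ] ≤ |s| [L : ℚ]`.
Proof.  WLOG `s` = the (finite) orbit.  `f := ∏_{c' ∈ orbit} (X - c')` has coefficients fixed by `L.fixingSubgroup`, hence in `L` (`InfiniteGalois.fixedField_fixingSubgroup`, `IntermediateField.mem_fixedField_iff`);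
so `(minpoly L c).natDegree ≤ |s|`, `finrank L L⟮c⟯ ≤ |s|`; tower `ℚ ⊂ L ⊂ L⟮c⟯ ∋ c`: `(minpoly ℚ c).natDegree = finrank ℚ ℚ⟮c⟯ ≤ finrank ℚ (L⟮c⟯.restrictScalars ℚ) = finrank ℚ L * finrank L L⟮c⟯`. -/
theorem natDegree_minpoly_le (L : IntermediateField ℚ Qb) [FiniteDimensional ℚ L] (c : Qb)
    (s : Finset Qb) (hs : ∀ σ ∈ L.fixingSubgroup, σ c ∈ s) :
    (minpoly ℚ c).natDegree ≤ s.card * Module.finrank ℚ L := by
  exact FinQ_a_natDegree_minpoly_le L c s hs

open Polynomial in
/-- a primitive integer polynomial killing an algebraic number, of degree at most that of the minimal polynomial. -/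
theorem FinQb_exists_primitive {E : Type*} [Field E] [CharZero E] [Algebra ℚ E] (c : E)
    (hc : IsIntegral ℚ c) :
    ∃ f : Polynomial ℤ, f.IsPrimitive ∧ (f.map (Int.castRingHom E)).eval c = 0 ∧
      f.natDegree ≤ (minpoly ℚ c).natDegree := by
  have hm0 : minpoly ℚ c ≠ 0 := minpoly.ne_zero hc
  set g := IsLocalization.integerNormalization (nonZeroDivisors ℤ) (minpoly ℚ c) with hg
  have hg0 : g ≠ 0 := fun h => hm0 ((IsFractionRing.integerNormalization_eq_zero_iff).1 h)
  have hroot : aeval c g = 0 :=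
    IsLocalization.integerNormalization_aeval_eq_zero (nonZeroDivisors ℤ) (minpoly ℚ c)
      (minpoly.aeval ℚ c)
  have hdeg : g.natDegree ≤ (minpoly ℚ c).natDegree := by
    obtain ⟨b, -, hb⟩ := IsLocalization.integerNormalization_spec (nonZeroDivisors ℤ)
      (minpoly ℚ c)
    rw [← natDegree_map_eq_of_injective (f := algebraMap ℤ ℚ) (algebraMap ℤ ℚ).injective_int g, hb]
    exact natDegree_smul_le _ _
  refine ⟨g.primPart, g.isPrimitive_primPart, ?_, ?_⟩
  · rw [← Subsingleton.elim (algebraMap ℤ E) (Int.castRingHom E), eval_map_algebraMap]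
    exact aeval_primPart_eq_zero hg0 hroot
  · rw [natDegree_primPart]
    exact hdeg

open Polynomial in
/-- a primitive integer polynomial does not vanish modulo `p`. -/
theorem FinQb_map_ne_zero {k : Type*} [Field k] (p : ℕ) (hp : p.Prime) [CharP k p]
    {f : Polynomial ℤ} (hf : f.IsPrimitive) : f.map (Int.castRingHom k) ≠ 0 := by
  intro h0
  have h1 : C (p : ℤ) ∣ f := by
    rw [C_dvd_iff_dvd_coeff]
    intro i
    have h2 := congrArg (fun q => q.coeff i) h0
    simp only [coeff_map, coeff_zero, eq_intCast] at h2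
    exact (CharP.intCast_eq_zero_iff k p _).1 h2
  have h3 := hf _ h1
  rw [Int.ofNat_isUnit, Nat.isUnit_iff] at h3
  exact hp.one_lt.ne' h3

/-- TASK S44/Old-FinQ-b.  The residue of `c ∈ A` is a root of a nonzero polynomial with coefficients in the prime field, of degree `≤ deg c`.
Proof.  `g := IsLocalization.integerNormalization (nonZeroDivisors ℤ) (minpoly ℚ c)`, `f := g.primPart` (`f` primitive, `aeval c f = 0`, `natDegree f = natDegree (minpoly ℚ c)`).
`f mod p ≠ 0`: otherwise `p` divides all coefficients, so `(p : ℤ) ∣ f.content = 1`  [`kA A` has characteristic `p`: `S37.Mod.charP_kA`; `(n : kA A) = 0 ↔ p ∣ n`].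
`(f mod p)(res c) = residue (f(c)) = 0` (`Polynomial.eval₂_hom` / `S37.Red.res_eval`). -/
theorem exists_poly_res {p : ℕ} (hp : p.Prime) {A : ValuationSubring Qb} (hA : A.LiesOverPrime p)
    {c : Qb} (hc : c ∈ A) :
    ∃ f : Polynomial ℤ, f.natDegree ≤ (minpoly ℚ c).natDegree ∧
      f.map (Int.castRingHom (kA A)) ≠ 0 ∧
      (f.map (Int.castRingHom (kA A))).eval (res (IsLocalRing.residue A) c) = 0 := by
  have := Fermat.Agent.S37.Mod.charP_kA hp hA
  obtain ⟨f, hprim, hroot, hdeg⟩ := FinQb_exists_primitive c 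
    ((AlgebraicClosure.isAlgebraic ℚ).isIntegral.isIntegral c)
  refine ⟨f, hdeg, FinQb_map_ne_zero p hp hprim, ?_⟩
  have h1 := Fermat.Agent.S37.Red.res_eval (π := IsLocalRing.residue A)
    (f.map (Int.castRingHom A)) hc
  rw [Polynomial.map_map, Polynomial.map_map,
    Subsingleton.elim ((IsLocalRing.residue A).comp (Int.castRingHom A)) (Int.castRingHom (kA A)),
    Subsingleton.elim (A.subtype.comp (Int.castRingHom A)) (Int.castRingHom Qb),
    hroot, Fermat.Agent.S37.Red.res_zero] at h1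
  exact h1.symm

/-- TASK S44/Old-FinQ-c.  (the polynomials `f.map (Int.castRingHom k)`, `natDegree f ≤ N`, form a finite set: they are the images of `Polynomial.degreeLT (ZMod p) (N+1)`, a finite type, under `Polynomial.map (ZMod.castHom _ k)`;
each nonzero one has finitely many roots: `Polynomial.rootSet_finite` / `Multiset.toFinset`; `Set.Finite.biUnion`.) -/
theorem finite_roots_bounded {p : ℕ} (hp : p.Prime) {A : ValuationSubring Qb}
    (hA : A.LiesOverPrime p) (N : ℕ) :
    {r : kA A | ∃ f : Polynomial ℤ, f.natDegree ≤ N ∧ f.map (Int.castRingHom (kA A)) ≠ 0 ∧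
      (f.map (Int.castRingHom (kA A))).eval r = 0}.Finite := by
  classical
  have hF : Fact p.Prime := ⟨hp⟩
  have hchar : CharP (kA A) p := Fermat.Agent.S37.Mod.charP_kA hp hA
  let φ : (Fin (N + 1) → ZMod p) → Polynomial (kA A) := fun c =>
    ∑ i : Fin (N + 1), Polynomial.C (ZMod.castHom (dvd_refl p) (kA A) (c i)) * Polynomial.X ^ (i : ℕ)
  have hfin : (⋃ g ∈ Set.range φ, ((g.roots.toFinset : Finset (kA A)) : Set (kA A))).Finite :=
    Set.Finite.biUnion (Set.finite_range φ) fun g _ => Finset.finite_toSet _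
  refine hfin.subset ?_
  rintro r ⟨f, hfN, hf0, hfr⟩
  refine Set.mem_biUnion (x := f.map (Int.castRingHom (kA A))) ?_ ?_
  · refine ⟨fun i => ((f.coeff i : ℤ) : ZMod p), ?_⟩
    have hdeg : (f.map (Int.castRingHom (kA A))).natDegree < N + 1 :=
      lt_of_le_of_lt (Polynomial.natDegree_map_le) (Nat.lt_succ_of_le hfN)
    conv_rhs => rw [Polynomial.as_sum_range_C_mul_X_pow' _ hdeg]
    show ∑ i : Fin (N + 1), Polynomial.C (ZMod.castHom (dvd_refl p) (kA A)
      (((f.coeff i : ℤ) : ZMod p))) * Polynomial.X ^ (i : ℕ) = _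
    rw [Fin.sum_univ_eq_sum_range (fun i => Polynomial.C (ZMod.castHom (dvd_refl p) (kA A)
      (((f.coeff i : ℤ) : ZMod p))) * Polynomial.X ^ i) (N + 1)]
    refine Finset.sum_congr rfl fun i _ => ?_
    rw [map_intCast, Polynomial.coeff_map, eq_intCast]
  · rw [Finset.mem_coe, Multiset.mem_toFinset, Polynomial.mem_roots hf0]
    exact hfr

/-- the action of `Gal(ℚ̄ / L)` on `FF M`. -/
def αL (M : ℕ) (L : IntermediateField ℚ Qb) : ↥L.fixingSubgroup →* SemilinearAut Qb (FF M) :=
  (arithmeticGalois (modularFunctionFieldFull M)).comp L.fixingSubgroup.subtype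

theorem αL_apply (M : ℕ) (L : IntermediateField ℚ Qb) (σ : ↥L.fixingSubgroup) :
    αL M L σ = arithmeticGalois (modularFunctionFieldFull M) (σ : GQ) := rfl

/-- TASK S44/Old-FinQ-c.  (`SemilinearAut.baseAut (αL M L σ) c = σ c` by `rfl` (`baseAut_arithmeticGalois`); the three lemmas above with `N = n * finrank ℚ L`; `Set.Finite.subset`.) -/
theorem smallOrb_αL {p : ℕ} (hp : p.Prime) {A : ValuationSubring Qb} (hA : A.LiesOverPrime p)
    (M : ℕ) (L : IntermediateField ℚ Qb) [FiniteDimensional ℚ L] :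
    SmallOrb (IsLocalRing.residue A) (αL M L) :=
  smallOrb_fixingSubgroup M p hp A hA L

end

end Fermat.Agent.S44.Old
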