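import Fermat.Agent.S44.Old.Mod
import Fermat.Agent.S44.Old.FinQ
import Fermat.Agent.S17.T1.Inputs

/-!
# S44 / Old / Main : **OLD** (route B, board #2215)
-/

set_option autoImplicit false

open AlgebraicCurve ModularCurve

namespace Fermat.Agent.S44.Old

open Fermat.Agent.ES Fermat.Agent.SS
open Fermat.Agent.S37.Mod (resF gaussVFF xQ xk RedRel)
open Fermat.Agent.S37.Red (IsPreChart)
open Fermat.Agent.S19.Geo0 (Good rP rD FixF FixP)
open Fermat.Agent.Crux (GM.GoodCoord)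
open Fermat.Agent.S26 (divisorOf)

noncomputable section

variable {M : ℕ} [NeZero M] {A : ValuationSubring Qb}

/-- the Prelude Hecke operator is a `Pic0.correspondence`. -/
theorem TJ_eq (ℓ : ℕ) [NeZero ℓ] [HasPrincipalDivisors Qb (FF (M * ℓ))] (x : JZero M) :
    TJ M ℓ x = Pic0.correspondence (heckeBetaBar Qb M ℓ) (heckeAlphaBar Qb M ℓ)
      (heckeBetaBarIntegral M ℓ) (heckeAlphaBarIntegral M ℓ)
      (Fermat.Agent.S37.fundamentalIdentityAlong_heckeBeta M ℓ) (finiteAlong_heckeAlpha M ℓ)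
      (Fermat.Agent.S37.normFormulaAlong_heckeAlpha M ℓ) x := by
  rw [TJ_apply, heckeOperatorAlong_eq (heckeAlphaBarIntegral M ℓ) (heckeBetaBarIntegral M ℓ)
    (Fermat.Agent.S37.fundamentalIdentityAlong_heckeBeta M ℓ) (finiteAlong_heckeAlpha M ℓ)
    (Fermat.Agent.S37.normFormulaAlong_heckeAlpha M ℓ)]
  rfl

theorem jZero_divisible (n : ℕ) (hn : 0 < n) (x : JZero M) : ∃ y : JZero M, n • y = x := by
  have halg : Algebra.IsAlgebraic ℚ (AlgebraicClosure ℚ) :=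
    (inferInstance : @Algebra.IsAlgebraic ℚ (AlgebraicClosure ℚ) _ _
      (AlgebraicClosure.instAlgebra ℚ))
  exact Fermat.Agent.S17.G.pic0_divisible (AlgebraicClosure ℚ) (modularFunctionFieldBar M)
    ((IsAlgClosed.lift : AlgebraicClosure ℚ →ₐ[ℚ] ℂ) : AlgebraicClosure ℚ →+* ℂ) n hn x

/-- `ker sp` is stable under `T_ℓ`. -/
theorem sp_TJ_eq_zero {p ℓ n : ℕ} [NeZero ℓ] (hp : p.Prime) (hp5 : 5 ≤ p) (hM : ¬ p ∣ M)
    (hA : A.LiesOverPrime p) (hℓ : ℓ.Prime) (hℓp : ℓ ≠ p) (hx : GM.GoodCoord M p (xh M) 1728 n)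
    (x : JZero M) (h : sp (Fermat.Agent.S19.Geo0.Inst.good_goodCoord hp hx hA) x = 0) :
    sp (Fermat.Agent.S19.Geo0.Inst.good_goodCoord hp hx hA) (TJ M ℓ x) = 0 := by
  have hMℓ : ¬ p ∣ M * ℓ := fun h =>
    (hp.dvd_mul.mp h).elim hM (fun h' => hℓp ((Nat.prime_dvd_prime_iff_eq hp hℓ).mp h').symm)
  obtain ⟨n', hx'⟩ := exists_goodCoord (M * ℓ) hp hp5 hMℓ
  have := Fermat.Agent.S37.hasPrincipalDivisors_FF (M * ℓ)
  obtain ⟨βt, -, hβ⟩ := exists_compat_beta (ℓ := ℓ) hp hA hx hx'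
  obtain ⟨αt, -, hα⟩ := exists_compat_alpha (ℓ := ℓ) hp hA hℓ hℓp hx hx'
  rw [TJ_eq]
  exact sp_correspondence_eq_zero _ (Fermat.Agent.S19.Geo0.Inst.good_goodCoord hp hx' hA) hβ hα _ _ _ _ _ x h

open Classical in
/-- `heckeSer ℓ` on the residue field (junk `0` if the result were not in the residue field; this never happens). -/
def heckeT' (M : ℕ) (A : ValuationSubring Qb) (ℓ : ℕ) [NeZero ℓ] (ft : resF M A) : resF M A :=
  if h : heckeSer ℓ (ft : LaurentSeries (kA A)) ∈ resF M A then ⟨_, h⟩ else 0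

/-- the eigen-relation on classes. -/
theorem sp_TJ_of_eigen {p ℓ n : ℕ} [NeZero ℓ] (hp : p.Prime) (hp5 : 5 ≤ p) (hM : ¬ p ∣ M)
    (hA : A.LiesOverPrime p) (hℓ : ℓ.Prime) (hℓM : ¬ ℓ ∣ M) (hℓp : ℓ ≠ p)
    (hx : GM.GoodCoord M p (xh M) 1728 n) {g : resF M A} (hg : g ≠ 0)
    {D : Divisor.degZero (K := Qb) (F := FF M)}
    (hD : p • rD (Fermat.Agent.S19.Geo0.Inst.good_goodCoord hp hx hA) (D : Divisor Qb (FF M)) = divisorOf g)
    {a : ℤ} {c : kA A} {h : LaurentSeries (kA A)} (hh : h ∈ resF M A)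
    (heig : heckeSer ℓ (g : LaurentSeries (kA A)) = cstk A c * (g : LaurentSeries (kA A)) ^ a * h ^ p) :
    sp (Fermat.Agent.S19.Geo0.Inst.good_goodCoord hp hx hA) (TJ M ℓ (Pic0.mk D)) =
      a • sp (Fermat.Agent.S19.Geo0.Inst.good_goodCoord hp hx hA) (Pic0.mk D) := by
  have hMℓ : ¬ p ∣ M * ℓ := fun h =>
    (hp.dvd_mul.mp h).elim hM (fun h' => hℓp ((Nat.prime_dvd_prime_iff_eq hp hℓ).mp h').symm)
  obtain ⟨n', hx'⟩ := exists_goodCoord (M * ℓ) hp hp5 hMℓ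
  have := Fermat.Agent.S37.hasPrincipalDivisors_FF (M * ℓ)
  obtain ⟨βt, -, hβ⟩ := exists_compat_beta (ℓ := ℓ) hp hA hx hx'
  obtain ⟨αt, -, hα⟩ := exists_compat_alpha (ℓ := ℓ) hp hA hℓ hℓp hx hx'
  have hmem : ∀ ft : resF M A, heckeSer ℓ (ft : LaurentSeries (kA A)) ∈ resF M A := by
    intro ft
    obtain ⟨f, hf⟩ := (gaussVFF M A).exists_lift ft
    exact (red_heckeF hp hA hℓ hℓM hℓp f ft hf).1
  have hT' : ∀ ft : resF M A, ((heckeT' M A ℓ ft : resF M A) : LaurentSeries (kA A)) =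
      heckeSer ℓ (ft : LaurentSeries (kA A)) := by
    intro ft
    rw [heckeT', dif_pos (hmem ft)]
  rw [TJ_eq]
  refine sp_correspondence_of_eigen _ (Fermat.Agent.S19.Geo0.Inst.good_goodCoord hp hx' hA) hβ hα _ _ _ _ _
    (fun f => heckeF M ℓ hℓ hℓM f) (heckeT' M A ℓ) ?_ ?_ hp.ne_zero hg ?_ hD (a := a) (c := c)
    (h := ⟨h, hh⟩) ?_
  · intro f hf
    have hf' : heckeF M ℓ hℓ hℓM f ≠ 0 := by
      intro h0
      have h1 : heckeF M ℓ hℓ hℓM f * heckeF M ℓ hℓ hℓM f⁻¹ = 1 := by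
        rw [← map_mul, mul_inv_cancel₀ hf, map_one]
      rw [h0, zero_mul] at h1
      exact zero_ne_one h1
    refine ⟨hf', ?_⟩
    ext P
    rw [Fermat.Agent.S37.correspondence_apply_of_ord ℓ hℓ hℓM hf
      (fun P => Fermat.Agent.S26.divisorOf_apply _ _) P, Fermat.Agent.S26.divisorOf_apply]
  · intro f ft hf
    obtain ⟨h', hr⟩ := red_heckeF hp hA hℓ hℓM hℓp f ft hf
    have : heckeT' M A ℓ ft = ⟨_, h'⟩ := Subtype.ext (hT' ft)
    rw [this]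
    exact hr
  · intro h0
    obtain ⟨ξ, hξ⟩ := Fermat.Agent.S44.Eis.exists_primitiveRoot_kA hp hA hℓ hℓp
    have h1 := hT' g
    rw [h0] at h1
    exact Fermat.Agent.S44.Eis.heckeSer_ne_zero hξ (fun h => hg (Subtype.ext h)) h1.symm
  · apply Subtype.ext
    rw [hT', heig]
    rfl

/-- **OLD**. -/
theorem old (M p : ℕ) [NeZero M] (hp : p.Prime) (hp5 : 5 ≤ p) (hM : ¬ p ∣ M) :
    Fermat.Agent.S44.Old M p := by
  intro A hA S hMS hpS a P hP hθ φ hφ heig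
  obtain ⟨hφm, hφ0, hdiv⟩ := hφ
  obtain ⟨n, hx⟩ := exists_goodCoord M hp hp5 hM
  set hG := Fermat.Agent.S19.Geo0.Inst.good_goodCoord hp hx hA with hGdef
  set g : resF M A := ⟨φ, hφm⟩ with hgdef
  have hg : g ≠ 0 := fun h => hφ0 (congrArg Subtype.val h)
  obtain ⟨D, hD⟩ := exists_class hG hp.ne_zero hg hdiv
  obtain ⟨L, hL, hLz⟩ := Fermat.Agent.S17.class_smooth M (Pic0.mk D : JZero M)
  have hprime : ∀ ℓ : GP S, ℓ.1.Prime ∧ ¬ ℓ.1 ∣ M ∧ ℓ.1 ≠ p := fun ℓ =>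
    ⟨ℓ.2.1, fun h => ℓ.2.2 (hMS ℓ.1 ℓ.2.1 h), fun h => ℓ.2.2 (h ▸ hpS)⟩
  have hfin : ∃ n : ℕ, 0 < n ∧ ∀ y : JZero M, (∀ σ ∈ L.fixingSubgroup, σ • y = y) →
      n • sp hG y = 0 := by
    have hy : FixF (αL M L) (xQ hx) := fun σ =>
      Subtype.ext (Fermat.Agent.Crux.GM.coeffMap_castS _ (xh M))
    have ho : FixP (αL M L) (Fermat.Agent.S17.infP Qb M) := fun σ =>
      Fermat.Agent.S17.gal_smul_infP (L := Qb) (N := M) (σ : GQ)
    obtain ⟨n, hn, h⟩ := exists_nsmul_sp_eq_zero (αL M L) hG hy ho (smallOrb_αL hp hA M L)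
    exact ⟨n, hn, fun y hy => h y fun σ => hy σ σ.2⟩
  have key : sp hG (Pic0.mk D) = 0 := by
    refine sp_eq_zero_of_eigen (G := GQ) (TJS M S) ?_ (sp hG) ?_ jZero_divisible
      (fun ℓ : GP S => a ℓ.1) (Pic0.mk D) ?_ p (nsmul_sp_eq_zero hG hg hD) P
      (opOf_TJ_torsion M S hMS P hP) ?_ L.fixingSubgroup hLz hfin
    · intro σ ℓ x
      have : NeZero ℓ.1 := ⟨ℓ.2.1.ne_zero⟩
      exact gal_TJ M ℓ.1 σ x
    · intro ℓ x hx0
      have : NeZero ℓ.1 := ⟨ℓ.2.1.ne_zero⟩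
      exact sp_TJ_eq_zero hp hp5 hM hA (hprime ℓ).1 (hprime ℓ).2.2 hx x hx0
    · intro ℓ
      have : NeZero ℓ.1 := ⟨ℓ.2.1.ne_zero⟩
      obtain ⟨c, h, hh, he⟩ := heig ℓ.1 ℓ.2.1 ℓ.2.2
      exact sp_TJ_of_eigen hp hp5 hM hA (hprime ℓ).1 (hprime ℓ).2.1 (hprime ℓ).2.2 hx hg hD hh he
    · exact ((Nat.prime_iff_prime_int.mp hp).coprime_iff_not_dvd.mpr hθ).symm
  obtain ⟨c, h, hgh⟩ := eq_const_mul_pow_of_sp_eq_zero hG hg hD key
  exact ⟨c, h, h.2, congrArg Subtype.val hgh⟩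

end

end Fermat.Agent.S44.Old
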