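import Mathlib

/-!
# S44 / Old / Abs : the abstract end game of OLD (pure group theory, Mathlib only)

`J` a divisible abelian group with endomorphisms `T i` and an action of a group `G` commuting with the `T i`;
`sp : J →+ Jb` a homomorphism whose kernel is stable under the `T i` ("specialisation").
`z ∈ J` with `sp (T i z) = a i • sp z`, `p • sp z = 0`.
`P` a non commutative polynomial in the `T i` which kills the torsion of `J`, with `θ_a(P)` prime to `p`.
`Γ ≤ G` fixing `z`, such that `sp` of the `Γ`-fixed elements is killed by some `n > 0`.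
Then `sp z = 0`.
-/

set_option autoImplicit false

namespace Fermat.Agent.S44.Old

variable {ι : Type*} {J Jb : Type*} [AddCommGroup J] [AddCommGroup Jb]

/-- the operator `P(T)`. -/
noncomputable def opOf (T : ι → Module.End ℤ J) : FreeAlgebra ℤ ι →ₐ[ℤ] Module.End ℤ J :=
  FreeAlgebra.lift ℤ T

/-- the integer `θ_a(P)`. -/
noncomputable def thetaOf (a : ι → ℤ) : FreeAlgebra ℤ ι →ₐ[ℤ] ℤ := FreeAlgebra.lift ℤ a

/-- TASK S44/Old-Abs-a.  The kernel of `sp` is stable under `P(T)`.  (`FreeAlgebra.induction`.) -/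
theorem sp_opOf_eq_zero (T : ι → Module.End ℤ J) (sp : J →+ Jb)
    (hker : ∀ i x, sp x = 0 → sp (T i x) = 0) (P : FreeAlgebra ℤ ι) (x : J) (hx : sp x = 0) :
    sp (opOf T P x) = 0 := by
  induction P using FreeAlgebra.induction generalizing x with
  | grade0 r =>
    rw [AlgHom.commutes, Module.algebraMap_end_apply, map_zsmul, hx, smul_zero]
  | grade1 i =>
    rw [opOf, FreeAlgebra.lift_ι_apply]
    exact hker i x hx
  | mul a b ha hb =>
    rw [map_mul, Module.End.mul_apply]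
    exact ha _ (hb x hx)
  | add a b ha hb =>
    rw [map_add, LinearMap.add_apply, map_add, ha x hx, hb x hx, add_zero]

/-- TASK S44/Old-Abs-a.  `sp (P(T) z) = θ_a(P) • sp z`.
(`FreeAlgebra.induction`; product: `P₁ P₂ z - θ₁ θ₂ z = P₁ (P₂ z - θ₂ z) + θ₂ (P₁ z - θ₁ z)`, `sp_opOf_eq_zero`.) -/
theorem sp_opOf (T : ι → Module.End ℤ J) (sp : J →+ Jb)
    (hker : ∀ i x, sp x = 0 → sp (T i x) = 0) (a : ι → ℤ) (z : J)
    (hz : ∀ i, sp (T i z) = a i • sp z) (P : FreeAlgebra ℤ ι) :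
    sp (opOf T P z) = thetaOf a P • sp z := by
  induction P using FreeAlgebra.induction with
  | grade0 r =>
    rw [AlgHom.commutes, AlgHom.commutes, Module.algebraMap_end_apply, map_zsmul]
    rfl
  | grade1 i =>
    rw [opOf, thetaOf, FreeAlgebra.lift_ι_apply, FreeAlgebra.lift_ι_apply]
    exact hz i
  | mul P₁ P₂ h₁ h₂ =>
    have h3 : sp (opOf T P₂ z - thetaOf a P₂ • z) = 0 := by
      rw [map_sub, map_zsmul, h₂, sub_self]
    have h4 := sp_opOf_eq_zero T sp hker P₁ _ h3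
    rw [map_sub, map_sub, sub_eq_zero, map_zsmul, map_zsmul, h₁] at h4
    rw [map_mul, map_mul, Module.End.mul_apply, h4, smul_smul, mul_comm]
  | add P₁ P₂ h₁ h₂ =>
    rw [map_add, map_add, LinearMap.add_apply, map_add, h₁, h₂, add_smul]

/-- TASK S44/Old-Abs-a.  `P(T)` commutes with `G`. -/
theorem smul_opOf {G : Type*} [Group G] [DistribMulAction G J] (T : ι → Module.End ℤ J)
    (hG : ∀ (σ : G) i x, σ • T i x = T i (σ • x)) (P : FreeAlgebra ℤ ι) (σ : G) (x : J) :
    σ • opOf T P x = opOf T P (σ • x) := by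
  induction P using FreeAlgebra.induction generalizing x with
  | grade0 r =>
    rw [AlgHom.commutes, Module.algebraMap_end_apply, Module.algebraMap_end_apply]
    exact (DistribSMul.toAddMonoidHom J σ).map_zsmul r x
  | grade1 i =>
    rw [opOf, FreeAlgebra.lift_ι_apply]
    exact hG σ i x
  | mul a b ha hb =>
    rw [map_mul, Module.End.mul_apply, Module.End.mul_apply, ha, hb]
  | add a b ha hb =>
    rw [map_add, LinearMap.add_apply, LinearMap.add_apply, smul_add, ha, hb]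

/-- TASK S44/Old-Abs-b.  **The end game.**
Proof.  `n` from `hfin`; `z = n • w` (`hdiv`); `y := P(T) w`.  For `σ ∈ Γ`: `n • (σ • w - w) = σ • z - z = 0`, so `P(T) (σ • w - w) = 0` (`htors`), so `σ • y = y` (`smul_opOf`).
Hence `0 = n • sp y = sp (P(T) z) = θ • sp z` (`sp_opOf`); with `p • sp z = 0` and Bezout (`hcop`), `sp z = 0`. -/
theorem sp_eq_zero_of_eigen {G : Type*} [Group G] [DistribMulAction G J]
    (T : ι → Module.End ℤ J) (hG : ∀ (σ : G) i x, σ • T i x = T i (σ • x))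
    (sp : J →+ Jb) (hker : ∀ i x, sp x = 0 → sp (T i x) = 0)
    (hdiv : ∀ (n : ℕ), 0 < n → ∀ x : J, ∃ y : J, n • y = x)
    (a : ι → ℤ) (z : J) (hz : ∀ i, sp (T i z) = a i • sp z) (p : ℕ) (hp : p • sp z = 0)
    (P : FreeAlgebra ℤ ι) (htors : ∀ (n : ℕ), 0 < n → ∀ x : J, n • x = 0 → opOf T P x = 0)
    (hcop : IsCoprime (thetaOf a P) (p : ℤ))
    (Γ : Subgroup G) (hΓ : ∀ σ ∈ Γ, σ • z = z)
    (hfin : ∃ n : ℕ, 0 < n ∧ ∀ y : J, (∀ σ ∈ Γ, σ • y = y) → n • sp y = 0) :
    sp z = 0 := by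
  obtain ⟨n, hn, hfin⟩ := hfin
  obtain ⟨w, hw⟩ := hdiv n hn z
  have hfix : ∀ σ ∈ Γ, σ • opOf T P w = opOf T P w := by
    intro σ hσ
    have h1 : n • (σ • w - w) = 0 := by
      rw [smul_sub, ← smul_comm σ n w, hw, hΓ σ hσ, sub_self]
    have h2 := htors n hn _ h1
    rw [map_sub, sub_eq_zero] at h2
    rw [smul_opOf T hG, h2]
  have h3 := hfin _ hfix
  have h4 : n • sp (opOf T P w) = thetaOf a P • sp z := by
    rw [← sp_opOf T sp hker a z hz P, ← hw, map_nsmul (opOf T P) n w, map_nsmul sp]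
  rw [h4] at h3
  obtain ⟨u, v, huv⟩ := hcop
  have h5 : sp z = (u * thetaOf a P + v * (p : ℤ)) • sp z := by rw [huv, one_smul]
  rw [h5, add_smul, mul_smul, mul_smul, h3, natCast_zsmul, hp, smul_zero, smul_zero, add_zero]

end Fermat.Agent.S44.Old
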