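import Fermat.Agent.S44.Old.Full
import Fermat.Agent.S19.Geo0.Lift
import Fermat.Prelude.Def_AlgebraicCurve_Correspondence

/-!
# S44 / Old / Corr : correspondences commute with the reduction of divisors  (= (L3) of board #2215)

Two valued function fields `(F, V, y)`, `(F', V', y')` with good reduction (`Geo0.Good`) over the same `(K, A, π, k)`, and an embedding `φ : F →ₐ[K] F'`
which is compatible with the reductions (`Compat`): `red' (φ f) = φt (red f)` and `φ y` has full residue degree on `F'`.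

* `rPt`                     : the induced map `Place k Ft' → Place k Ft`, `rP (w|φ) = rPt (rP' w)`;
* `rD_pushforwardAlong`     : `rD (φ_* E') = (rPt)_* (rD' E')`;
* `rD_pullbackAlong_apply`  : `rD' (φ^* E) Q' = eT Q' * rD E (rPt Q')`, `eT Q' > 0`;
* `ord_map`                 : `ord_Q' (φt ft) = eT Q' * ord_{rPt Q'} ft`;
* `rD_correspondence_eq_zero` : **(L3)**.
-/

set_option autoImplicit false
set_option linter.unusedSectionVars false

namespace Fermat.Agent.S44.Old

open AlgebraicCurve Fermat.Agent.S26 Fermat.Agent.S37.Red Fermat.Agent.S19.Geo0 Polynomial IntermediateField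

section Restrict

variable {K F F' : Type*} [Field K] [Field F] [Field F'] [Algebra K F] [Algebra K F']
variable (φ : F →ₐ[K] F') (hφ : φ.toRingHom.IsIntegral)

include hφ in
theorem CorrA_ramIdx_pos (w : Place K F') : 0 < w.ramificationIndexAlong φ := by
  let _ := algebraAlong φ
  have := isScalarTower_along φ
  have := isIntegral_along φ hφ
  exact w.ramificationIndex_pos (F := F)

/-- TASK S44/Old-Corr-a.  (unfold `Place.restrictAlong`, `Place.restrict`: the valuation ring of `w|φ` is the comap of that of `w`; or by `reg_iff_ord` + `Place.ord_restrictAlong` + positivity of the ramification index.) -/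
theorem reg_restrictAlong (w : Place K F') (f : F) : Reg (w.restrictAlong φ hφ) f ↔ Reg w (φ f) := by
  have he : (0 : ℤ) < (w.ramificationIndexAlong φ : ℤ) := by
    exact_mod_cast CorrA_ramIdx_pos φ hφ w
  rw [reg_iff_ord, reg_iff_ord, Place.ord_restrictAlong φ hφ]
  constructor
  · intro h
    exact mul_nonneg he.le h
  · intro h
    exact nonneg_of_mul_nonneg_right h he

/-- TASK S44/Old-Corr-a. -/
theorem van_restrictAlong (w : Place K F') (f : F) : Van (w.restrictAlong φ hφ) f ↔ Van w (φ f) := by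
  have he : (0 : ℤ) < (w.ramificationIndexAlong φ : ℤ) := by
    exact_mod_cast CorrA_ramIdx_pos φ hφ w
  rw [van_iff_ord, van_iff_ord, Place.ord_restrictAlong φ hφ, map_eq_zero]
  refine or_congr Iff.rfl ?_
  constructor
  · intro h
    exact mul_pos he h
  · intro h
    exact (mul_pos_iff_of_pos_left he).mp h

/-- TASK S44/Old-Corr-a.  (`val_eq_of_van`, `van_sub_val`, `val_of_not_reg`; `φ (algebraMap c) = algebraMap c`.) -/
theorem val_restrictAlong [IsAlgClosed K] [FF1 K F] [FF1 K F'] (w : Place K F') (f : F) :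
    val (w.restrictAlong φ hφ) f = val w (φ f) := by
  by_cases hf : Reg (w.restrictAlong φ hφ) f
  · have h1 := van_sub_val (w.restrictAlong φ hφ) hf
    rw [van_restrictAlong, map_sub, AlgHom.commutes] at h1
    exact (val_eq_of_van w h1).symm
  · rw [val_of_not_reg _ hf, val_of_not_reg]
    rwa [← reg_restrictAlong φ hφ]

/-- TASK S44/Old-Corr-a.  (apply `φ` to the monic equation: `(evA A (φ y)) = φ ∘ (evA A y)`.) -/
theorem IntA.map {A : ValuationSubring K} {y b : F} (hb : IntA A y b) : IntA A (φ y) (φ b) := by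
  obtain ⟨P, hP, hPb⟩ := hb
  refine ⟨P, hP, ?_⟩
  have h1 : evA A (φ y) = φ.toRingHom.comp (evA A y) := by
    ext p
    · simp [evA_apply]
    · simp [evA_apply]
  rw [h1]
  have h2 := Polynomial.hom_eval₂ P (evA A y) φ.toRingHom b
  rw [hPb, map_zero] at h2
  exact h2.symm

include hφ in
/-- TASK S44/Old-Corr-a.  (`Place.ramificationIndex_pos` after `letI := algebraAlong φ; haveI := isIntegral_along φ hφ`.) -/
theorem ramificationIndexAlong_pos (w : Place K F') : 0 < w.ramificationIndexAlong φ := by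
  exact CorrA_ramIdx_pos φ hφ w

end Restrict

variable {K k : Type*} [Field K] [Field k] {A : ValuationSubring K} {π : A →+* k}
variable {F Ft : Type*} [Field F] [Field Ft] [Algebra K F] [Algebra k Ft]
variable {F' Ft' : Type*} [Field F'] [Field Ft'] [Algebra K F'] [Algebra k Ft']

/-- `φ` is compatible with the reductions, and `φ y` has full residue degree. -/
structure Compat (V : VFF A π F Ft) (V' : VFF A π F' Ft') (y : F) (yt : Ft) (φ : F →ₐ[K] F')
    (φt : Ft → Ft') : Prop where
  red : ∀ (f : F) (ft : Ft), V.Red f ft → V'.Red (φ f) (φt ft)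
  pre : IsPreChart V' (φ y) (φt yt)

variable [IsAlgClosed K] [FF1 K F] [IsAlgClosed k] [FF1 k Ft] [FF1 K F'] [FF1 k Ft']
variable {V : VFF A π F Ft} {y : F} {yt : Ft} {V' : VFF A π F' Ft'} {y' : F'} {yt' : Ft'}
variable {φ : F →ₐ[K] F'} {φt : Ft → Ft'}

/-- TASK S44/Old-Corr-b.  (`hc.pre.inv`, `map_inv₀`, and `φt yt⁻¹ = (φt yt)⁻¹` by `VFF.Red.unique` applied to `hc.red _ _ (hG.h₁.red_y)` and `VFF.Red.inv`.) -/
theorem Compat.inv (hG : Good V y yt) (hc : Compat V V' y yt φ φt) :
    Compat V V' y⁻¹ yt⁻¹ φ φt := by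
  refine ⟨hc.red, ?_⟩
  have h1 : V'.Red (φ y⁻¹) (φt yt⁻¹) := hc.red _ _ hG.h₁.red_y
  have h2 := hc.pre.inv
  have h3 : φt yt⁻¹ = (φt yt)⁻¹ := by
    rw [map_inv₀] at h1
    exact h1.unique h2.red_y
  rw [map_inv₀, h3]
  exact h2

/-- TASK S44/Old-Corr-b.  One chart.  `w, w'` in the same class of `F'`, `w|φ` in the chart `y`.  Then `w'|φ` is in the chart `y` and is related to `w|φ`.
Proof.  `u := φ y`, `ut := φt yt`, `Q' := rP' w = rP' w'`.  `InChart A u w` (`reg_restrictAlong`, `val_restrictAlong`), so `ut` is regular at `Q'` (`reg_val_rP_of_inChart hG' hc.pre`), so `InChart A u w'`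
(`inChart_of_reg_rP`).  For `b ∈ B_A(y)`: `b ∈ V.O` (`IntA.mem_O`), `bt := red b`, `φ b ∈ B_A(u)` (`IntA.map`), `V'.Red (φ b) (φt bt)`; by `val_rP_of_intA` both `(φ b)(w)` and `(φ b)(w')` lie in `A` and
reduce to `(φt bt)(Q')`; `res_eq_res_iff`. -/
theorem rel_restrictAlong (hG' : Good V' y' yt') (hy : V.Red y yt) (hc : Compat V V' y yt φ φt)
    (hφ : φ.toRingHom.IsIntegral) {w w' : Place K F'} (h : rP hG' w = rP hG' w')
    (hw : InChart A y (w.restrictAlong φ hφ)) :
    Rel A y (w.restrictAlong φ hφ) (w'.restrictAlong φ hφ) := by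
  have hwu : InChart A (φ y) w :=
    ⟨(reg_restrictAlong φ hφ w y).1 hw.1, by rw [← val_restrictAlong φ hφ]; exact hw.2⟩
  have hreg : Reg (rP hG' w) (φt yt) := (reg_val_rP_of_inChart hG' hc.pre hwu).1
  have hw'u : InChart A (φ y) w' := inChart_of_reg_rP hG' hc.pre (h ▸ hreg)
  have hw' : InChart A y (w'.restrictAlong φ hφ) :=
    ⟨(reg_restrictAlong φ hφ w' y).2 hw'u.1, by rw [val_restrictAlong φ hφ]; exact hw'u.2⟩
  refine ⟨hw, hw', fun b hb => ?_⟩
  obtain ⟨bt, hbt⟩ := V.exists_red (hb.mem_O V hy.mem)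
  have hφb : IntA A (φ y) (φ b) := IntA.map φ hb
  have hred : V'.Red (φ b) (φt bt) := hc.red b bt hbt
  obtain ⟨h1A, h1⟩ := val_rP_of_intA hG' hc.pre hwu hφb hred
  obtain ⟨h2A, h2⟩ := val_rP_of_intA hG' hc.pre hw'u hφb hred
  rw [val_restrictAlong φ hφ, val_restrictAlong φ hφ]
  refine (res_eq_res_iff V.π_surjective h1A h2A).1 ?_
  rw [← h1, ← h2, h]

/-- TASK S44/Old-Corr-b.  **(a)**  If `w|φ` is in the chart `y`: `rel_restrictAlong`, `isCenIn_rP`, `IsCenIn.rel_iff`.  Otherwise `w|φ` is in the chart `y⁻¹`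
(`reg_or_reg_inv`, `inv_mem_nonunits_of_not_mem`, ...): the same with `hG.symm`, `hc.inv`, `isCenIn_inv_rP`. -/
theorem rP_restrictAlong_congr (hG : Good V y yt) (hG' : Good V' y' yt')
    (hc : Compat V V' y yt φ φt) (hφ : φ.toRingHom.IsIntegral) {w w' : Place K F'}
    (h : rP hG' w = rP hG' w') :
    rP hG (w.restrictAlong φ hφ) = rP hG (w'.restrictAlong φ hφ) := by
  rcases inChart_or_inDisc_inv V.π_surjective y (w.restrictAlong φ hφ) with hw | hw
  · have rel := rel_restrictAlong hG' hG.h₀.red_y hc hφ h hw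
    exact ((isCenIn_rP hG rel.1).rel_iff hG.h₀ (isCenIn_rP hG rel.2.1)).1 rel
  · have rel := rel_restrictAlong hG' hG.h₁.red_y (hc.inv hG) hφ h hw.1
    exact ((isCenIn_inv_rP hG rel.1).rel_iff hG.h₁ (isCenIn_inv_rP hG rel.2.1)).1 rel

/-- the map induced by `φ` on the places of the residue fields. -/
noncomputable def rPt (hG : Good V y yt) (hG' : Good V' y' yt') (hφ : φ.toRingHom.IsIntegral)
    (Q' : Place k Ft') : Place k Ft :=
  rP hG ((rP_surjective hG' Q').choose.restrictAlong φ hφ)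

theorem rP_restrictAlong (hG : Good V y yt) (hG' : Good V' y' yt')
    (hc : Compat V V' y yt φ φt) (hφ : φ.toRingHom.IsIntegral) (w : Place K F') :
    rP hG (w.restrictAlong φ hφ) = rPt hG hG' hφ (rP hG' w) :=
  rP_restrictAlong_congr hG hG' hc hφ (rP_surjective hG' (rP hG' w)).choose_spec.symm

/-- TASK S44/Old-Corr-c.  `rD (φ_* E') = (rPt)_* (rD' E')`.  (`Finsupp.induction_linear`; `Divisor.pushforwardAlong_single`, inertia degree `1`: `S37.inertiaDegAlong_eq_one` or directly
`Place.deg = 1` (`deg_eq_one_of_isAlgClosed`) and `deg_restrict_mul_inertiaDeg`; `rD_single`, `rP_restrictAlong`, `Finsupp.mapDomain_single`.) -/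
theorem rD_pushforwardAlong (hG : Good V y yt) (hG' : Good V' y' yt')
    (hc : Compat V V' y yt φ φt) (hφ : φ.toRingHom.IsIntegral) (E' : Divisor K F') :
    rD hG (Divisor.pushforwardAlong φ hφ E') = Finsupp.mapDomain (rPt hG hG' hφ) (rD hG' E') := by
  induction E' using Finsupp.induction_linear with
  | zero => simp
  | add D E hD hE => rw [map_add, map_add, map_add, hD, hE, Finsupp.mapDomain_add]
  | single w n =>
    have h1 : w.inertiaDegAlong φ hφ = 1 := by
      letI := algebraAlong φ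
      haveI := isScalarTower_along φ
      haveI := isIntegral_along φ hφ
      have h := w.deg_restrict_mul_inertiaDeg (F := F)
      rw [Fermat.Agent.S26.deg_eq_one_of_isAlgClosed, Fermat.Agent.S26.deg_eq_one_of_isAlgClosed,
        one_mul] at h
      exact h
    rw [Divisor.pushforwardAlong_single, h1, rD_single, rD_single, Finsupp.mapDomain_single,
      rP_restrictAlong hG hG' hc hφ w]
    simp

/-- the "ramification index" of `Q'` over `rPt Q'`: the order at `Q'` of `φt` of a local parameter at `rPt Q'`. -/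
noncomputable def eT (hG : Good V y yt) (hG' : Good V' y' yt') (hφ : φ.toRingHom.IsIntegral)
    (φt : Ft → Ft') (Q' : Place k Ft') : ℤ :=
  Q'.ord (φt (exists_param hG {rPt hG hG' hφ Q'} (Finset.mem_singleton_self _)).choose_spec.choose)

variable [HasPrincipalDivisors K F']

/-- TASK S44/Old-Corr-d.  **(b)**, the key local computation.  `Q := rPt Q'`, `(t, tt)` the parameter at `Q` chosen in `eT` (`exists_param`: `V.Red t tt`, `t` regular on the class of `Q`, `ord_Q tt = 1`).
`a := t(v) ∈ A`, `res a = tt(Q) = 0` (`val_red`), `W := φ (t - a)`, `V'.Red W (φt tt)`  [`hc.red` for `t - a`, whose reduction is `tt - 0`].  `φt tt ≠ 0` (`W ≠ 0` has a nonzero ... : use that `hc.red` maps the unit `tt`: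
`V.Red (t-a)⁻¹ tt⁻¹` so `φt tt * φt tt⁻¹ = 1` by `Red.unique`).  `ord_red hG'`:  `ord_Q' (φt tt) = ∑ᶠ_{rP' w = Q'} ord_w W = ∑ᶠ e(w) ord_{w|φ} (t - a)` (`Place.ord_restrictAlong`); every such `w|φ` lies in the class of `Q`
(`rP_restrictAlong`), where `t - a` has order `1` at `v` and `0` elsewhere (`ord_sub_val_eq_one`, `exists_unique_val` / `exists_simple_zero_aux`). -/
theorem finsum_ramificationIndex (hG : Good V y yt) (hG' : Good V' y' yt')
    (hc : Compat V V' y yt φ φt) (hφ : φ.toRingHom.IsIntegral) (Q' : Place k Ft') (v : Place K F)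
    (hv : rP hG v = rPt hG hG' hφ Q') :
    ∑ᶠ (w : Place K F') (_ : rP hG' w = Q' ∧ w.restrictAlong φ hφ = v),
      (w.ramificationIndexAlong φ : ℤ) = eT hG hG' hφ φt Q' := by
  unfold eT
  have hspec := (exists_param hG {rPt hG hG' hφ Q'}
    (Finset.mem_singleton_self _)).choose_spec.choose_spec
  generalize (exists_param hG {rPt hG hG' hφ Q'}
    (Finset.mem_singleton_self _)).choose_spec.choose = tt at hspec ⊢
  generalize (exists_param hG {rPt hG hG' hφ Q'}
    (Finset.mem_singleton_self _)).choose = t at hspec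
  generalize hQ : rPt hG hG' hφ Q' = Q at hv hspec
  obtain ⟨hred, hreg, hord, -⟩ := hspec
  have hreg' : ∀ v : Place K F, rP hG v = Q → Reg v t := fun v hv => hreg v (by simp [hv])
  have hvan : Van Q tt := van_of_ord_pos Q (by rw [hord]; exact one_pos)
  have hval0 : val Q tt = 0 := (val_eq_zero_iff Q hvan.reg).mpr hvan
  have h1 : Q.ord (tt - algebraMap k Ft (val Q tt)) = 1 := by
    rw [hval0, map_zero, sub_zero]; exact hord
  obtain ⟨-, h2⟩ := val_red hG hred hreg'
  obtain ⟨ha, hres⟩ := h2 v hv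
  obtain ⟨hW0, v₁, hv₁, hv1, hv2⟩ := exists_simple_zero_aux hG hred hreg' h1 ha hres
  have hvv : v.ord (t - algebraMap K F (val v t)) = 1 := ord_sub_val_eq_one hG hred hreg' h1 hv
  have hvv₁ : v = v₁ := by
    by_contra hne
    have := hv2 v hv hne
    omega
  subst hvv₁
  have hredW : V.Red (t - algebraMap K F (val v t)) tt := by
    have h2 := hred.sub (V.red_const ha)
    rwa [hres, hval0, map_zero, sub_zero] at h2
  have hredW' : V'.Red (φ (t - algebraMap K F (val v t))) (φt tt) := hc.red _ _ hredW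
  have htt0 : tt ≠ 0 := by
    intro h
    rw [h, Place.ord_zero] at hord
    exact zero_ne_one hord
  have hφtt : φt tt ≠ 0 := by
    have h3 : V.Red (t - algebraMap K F (val v t))⁻¹ tt⁻¹ := hredW.inv htt0
    have h4 := hc.red _ _ h3
    have h5 := hredW'.mul h4
    rw [← map_mul, mul_inv_cancel₀ hW0, map_one] at h5
    have h6 := h5.unique V'.red_one
    intro h0
    rw [h0, zero_mul] at h6
    exact zero_ne_one h6
  rw [ord_red hG' hredW' hφtt Q']
  refine finsum_congr fun w => ?_
  by_cases hw : rP hG' w = Q'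
  · rw [Place.ord_restrictAlong φ hφ]
    by_cases hwv : w.restrictAlong φ hφ = v
    · simp [hw, hwv, hvv]
    · have := hv2 _ (by rw [rP_restrictAlong hG hG' hc hφ, hw, hQ]) hwv
      simp [hw, hwv, this]
  · simp [hw]

/-- TASK S44/Old-Corr-e.  (`w₀` over `Q'`, `v := w₀|φ`: the sum in `finsum_ramificationIndex` has non negative terms, finite support (`Place.fiberAlong`) and contains `e(w₀) > 0`.) -/
theorem eT_pos (hG : Good V y yt) (hG' : Good V' y' yt') (hc : Compat V V' y yt φ φt)
    (hφ : φ.toRingHom.IsIntegral) (Q' : Place k Ft') : 0 < eT hG hG' hφ φt Q' := by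
  classical
  obtain ⟨w₀, hw₀⟩ := rP_surjective hG' Q'
  have hv : rP hG (w₀.restrictAlong φ hφ) = rPt hG hG' hφ Q' := by
    rw [rP_restrictAlong hG hG' hc hφ w₀, hw₀]
  rw [← finsum_ramificationIndex hG hG' hc hφ Q' _ hv]
  refine finsum_pos (fun w => finsum_nonneg fun _ => Int.natCast_nonneg _) ⟨w₀, ?_⟩ ?_
  · rw [finsum_eq_if, if_pos ⟨hw₀, rfl⟩]
    exact_mod_cast ramificationIndexAlong_pos φ hφ w₀
  · refine (Place.fiberAlong φ hφ (w₀.restrictAlong φ hφ)).finite_toSet.subset ?_
    intro w hw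
    rw [Function.mem_support] at hw
    by_contra hn
    apply hw
    rw [finsum_eq_if, if_neg]
    rintro ⟨-, h⟩
    exact hn (Finset.mem_coe.2 (Place.mem_fiberAlong.2 h))

open Classical in
/-- (helper, `Old-Corr-e`) the sum of `finsum_ramificationIndex` as a sum over the fibre. -/
theorem CorrE_finsum_eq (hG' : Good V' y' yt') (hφ : φ.toRingHom.IsIntegral) (Q' : Place k Ft')
    (v : Place K F) :
    ∑ᶠ (w : Place K F') (_ : rP hG' w = Q' ∧ w.restrictAlong φ hφ = v),
      (w.ramificationIndexAlong φ : ℤ) =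
    ∑ W ∈ Place.fiberAlong φ hφ v, if rP hG' W = Q' then (W.ramificationIndexAlong φ : ℤ) else 0 := by
  rw [finsum_eq_sum_of_support_subset (s := Place.fiberAlong φ hφ v)]
  · refine Finset.sum_congr rfl fun W hW => ?_
    rw [finsum_eq_if]
    have hW' : W.restrictAlong φ hφ = v := Place.mem_fiberAlong.1 hW
    by_cases h : rP hG' W = Q'
    · rw [if_pos ⟨h, hW'⟩, if_pos h]
    · rw [if_neg (fun h' => h h'.1), if_neg h]
  · intro w hw
    rw [Function.mem_support] at hw
    by_contra hn
    apply hw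
    rw [finsum_eq_if, if_neg]
    rintro ⟨-, h⟩
    exact hn (Finset.mem_coe.2 (Place.mem_fiberAlong.2 h))

/-- TASK S44/Old-Corr-e.  `rD' (φ^* E) Q' = eT Q' * rD E (rPt Q')`.  (`Finsupp.induction_linear`; for `E = single v n`: `rD_apply`, `Divisor.pullbackAlong_apply`; if `rP v = rPt Q'` use `finsum_ramificationIndex`,
otherwise no `w` over `Q'` restricts to `v` (`rP_restrictAlong`).) -/
theorem rD_pullbackAlong_apply (hG : Good V y yt) (hG' : Good V' y' yt')
    (hc : Compat V V' y yt φ φt) (hφ : φ.toRingHom.IsIntegral) (E : Divisor K F)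
    (Q' : Place k Ft') :
    rD hG' (Divisor.pullbackAlong φ hφ E) Q' = eT hG hG' hφ φt Q' * rD hG E (rPt hG hG' hφ Q') := by
  classical
  induction E using Finsupp.induction_linear with
  | zero => simp
  | add D E hD hE =>
    rw [map_add, map_add, map_add, Finsupp.add_apply, Finsupp.add_apply, hD, hE, mul_add]
  | single v n =>
    have h1 : rD hG' (Divisor.pullbackAlong φ hφ (Finsupp.single v n)) Q' =
        n * ∑ W ∈ Place.fiberAlong φ hφ v,
          if rP hG' W = Q' then (W.ramificationIndexAlong φ : ℤ) else 0 := by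
      rw [Divisor.pullbackAlong_single, map_sum, Finsupp.finsetSum_apply, Finset.mul_sum]
      refine Finset.sum_congr rfl fun W _ => ?_
      rw [rD_single, Finsupp.single_apply]
      split_ifs <;> simp
    rw [h1, rD_single, Finsupp.single_apply]
    by_cases hv : rP hG v = rPt hG hG' hφ Q'
    · rw [if_pos hv, ← CorrE_finsum_eq hG' hφ Q' v, finsum_ramificationIndex hG hG' hc hφ Q' v hv,
        mul_comm]
    · rw [if_neg hv, mul_zero, Finset.sum_eq_zero, mul_zero]
      intro W hW
      rw [if_neg]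
      intro hWQ
      apply hv
      rw [← Place.mem_fiberAlong.1 hW, rP_restrictAlong hG hG' hc hφ W, hWQ]

/-- TASK S44/Old-Corr-e.  `ord_Q' (φt ft) = eT Q' * ord_{rPt Q'} ft`.  (lift `ft` to `f`; `rD_pullbackAlong_apply` for `E = divisorOf f`; `pullbackAlong (divisorOf f) = divisorOf (φ f)` by `Divisor.pullbackAlong_apply`,
`Place.ord_restrictAlong`; `rD_divisorOf` on both levels; `φt ft ≠ 0` as in `finsum_ramificationIndex`.) -/
theorem ord_map (hG : Good V y yt) (hG' : Good V' y' yt') (hc : Compat V V' y yt φ φt)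
    (hφ : φ.toRingHom.IsIntegral) {ft : Ft} (hft : ft ≠ 0) (Q' : Place k Ft') :
    Q'.ord (φt ft) = eT hG hG' hφ φt Q' * (rPt hG hG' hφ Q').ord ft := by
  obtain ⟨f, hf⟩ := V.exists_lift ft
  have hf0 : f ≠ 0 := hf.ne_zero hft
  have hf' : V'.Red (φ f) (φt ft) := hc.red f ft hf
  have hne : φt ft ≠ 0 := by
    intro h0
    have h1 := hf'.mul (hc.red _ _ (hf.inv hft))
    rw [← map_mul, mul_inv_cancel₀ hf0, map_one, h0, zero_mul] at h1
    exact zero_ne_one (h1.unique V'.red_one)
  have hpull : Divisor.pullbackAlong φ hφ (divisorOf f) = divisorOf (φ f) := by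
    ext w
    rw [Divisor.pullbackAlong_apply, divisorOf_apply, divisorOf_apply, Place.ord_restrictAlong φ hφ]
  have h := rD_pullbackAlong_apply hG hG' hc hφ (divisorOf f) Q'
  rw [hpull, rD_divisorOf hG' hf' hne, rD_divisorOf hG hf hft, divisorOf_apply, divisorOf_apply] at h
  exact h

variable {ψ : F →ₐ[K] F'} {ψt : Ft → Ft'}

/-- the value of `rD (ψ_* φ^* E)` at `Q`. -/
theorem rD_correspondence_apply (hG : Good V y yt) (hG' : Good V' y' yt')
    (hd : Compat V V' y yt ψ ψt) (hφ : φ.toRingHom.IsIntegral)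
    (hψ : ψ.toRingHom.IsIntegral) (E : Divisor K F) :
    rD hG (Divisor.correspondence φ ψ hφ hψ E) =
      Finsupp.mapDomain (rPt hG hG' hψ) (rD hG' (Divisor.pullbackAlong φ hφ E)) := by
  rw [Divisor.correspondence_apply, rD_pushforwardAlong hG hG' hd hψ]

/-- **(L3)**: the kernel of `rD` is stable under correspondences. -/
theorem rD_correspondence_eq_zero (hG : Good V y yt) (hG' : Good V' y' yt')
    (hc : Compat V V' y yt φ φt) (hd : Compat V V' y yt ψ ψt) (hφ : φ.toRingHom.IsIntegral)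
    (hψ : ψ.toRingHom.IsIntegral) {E : Divisor K F} (hE : rD hG E = 0) :
    rD hG (Divisor.correspondence φ ψ hφ hψ E) = 0 := by
  rw [rD_correspondence_apply hG hG' hd hφ hψ]
  have h0 : rD hG' (Divisor.pullbackAlong φ hφ E) = 0 := by
    ext Q'
    rw [rD_pullbackAlong_apply hG hG' hc hφ, hE]
    simp
  rw [h0, Finsupp.mapDomain_zero]

/-- TASK S44/Old-Corr-f.  **Divisibility away from a stable set of places** (for (J2)).  `C` a set of places of `Ft` ("cusps") such that for every `Q'`: `rPt_φ Q' ∈ C ↔ rPt_ψ Q' ∈ C`.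
If `m ∣ rD E Q` for all `Q ∉ C` then `m ∣ rD (ψ_* φ^* E) Q` for all `Q ∉ C`.
(`rD_correspondence_apply`; `Finsupp.mapDomain` at `Q` is the sum over the `Q'` in the support with `rPt_ψ Q' = Q`: `Finsupp.mapDomain`, `Finsupp.sum_apply`, `Finsupp.single_apply`, `Finset.dvd_sum`; `rD_pullbackAlong_apply`.) -/
theorem dvd_rD_correspondence (hG : Good V y yt) (hG' : Good V' y' yt')
    (hc : Compat V V' y yt φ φt) (hd : Compat V V' y yt ψ ψt) (hφ : φ.toRingHom.IsIntegral)
    (hψ : ψ.toRingHom.IsIntegral) (C : Set (Place k Ft))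
    (hC : ∀ Q' : Place k Ft', rPt hG hG' hφ Q' ∈ C ↔ rPt hG hG' hψ Q' ∈ C) (m : ℤ)
    {E : Divisor K F} (hE : ∀ Q, Q ∉ C → m ∣ rD hG E Q) (Q : Place k Ft) (hQ : Q ∉ C) :
    m ∣ rD hG (Divisor.correspondence φ ψ hφ hψ E) Q := by
  classical
  rw [rD_correspondence_apply hG hG' hd hφ hψ, Finsupp.mapDomain, Finsupp.sum_apply]
  refine Finset.dvd_sum fun Q' _ => ?_
  show m ∣ (Finsupp.single (rPt hG hG' hψ Q') (rD hG' (Divisor.pullbackAlong φ hφ E) Q')) Q
  rw [Finsupp.single_apply]
  split_ifs with h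
  · rw [rD_pullbackAlong_apply hG hG' hc hφ]
    refine Dvd.dvd.mul_left (hE _ ?_) _
    intro hmem
    exact hQ (h ▸ (hC Q').1 hmem)
  · exact dvd_zero m

end Fermat.Agent.S44.Old
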