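import Fermat.Agent.S44.Old.Spec
import Fermat.Agent.S17.FF.MinRep

/-!
# S44 / Old / Fin : the specialisations of the classes fixed by a "small" group of semilinear automorphisms form a finite set  (= (FIN) of board #2215)

`Γ` acts semilinearly on `F/K` (`α : Γ →* SemilinearAut K F`), fixing the coordinate `y` and a place `o`.
ARITHMETIC HYPOTHESIS `SmallOrb`: for every `n`, the constants `c ∈ A` whose `Γ`-orbit has at most `n` elements have only finitely many residues.
(For `K = ℚ̄`, `Γ` = an open subgroup of `G_ℚ`: `Old/FinQ.lean`.)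
-/

set_option autoImplicit false
set_option linter.unusedSectionVars false

namespace Fermat.Agent.S44.Old

open AlgebraicCurve Fermat.Agent.S26 Fermat.Agent.S37.Red Fermat.Agent.S19.Geo0 Polynomial IntermediateField

variable {K k : Type*} [Field K] [Field k] {A : ValuationSubring K} {π : A →+* k}
variable {F Ft : Type*} [Field F] [Field Ft] [Algebra K F] [Algebra k Ft]
variable [IsAlgClosed K] [FF1 K F] [IsAlgClosed k] [FF1 k Ft]
variable {V : VFF A π F Ft} {y : F} {yt : Ft}
variable {Γ : Type*} [Group Γ] (α : Γ →* SemilinearAut K F)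

/-- the constants of `A` with at most `n` conjugates under `Γ` have finitely many residues. -/
def SmallOrb (π : A →+* k) (α : Γ →* SemilinearAut K F) : Prop :=
  ∀ n : ℕ, {r : k | ∃ (c : K) (s : Finset K), c ∈ A ∧ res π c = r ∧ s.card ≤ n ∧
    ∀ σ : Γ, SemilinearAut.baseAut (α σ) c ∈ s}.Finite

/-- TASK S44/Old-Fin-a.  A `Γ`-fixed class has a representative `E - d o`, `E ≥ 0` `Γ`-stable of degree `d ≤ g`.
Copy of `S17.exists_rat_rep` (`S17/D/Moving.lean`, l. 199-230) with `Γ` instead of `G_ℚ`: `S17.FF.exists_minRep o D hD` + its uniqueness clause applied to `α σ • E`.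
(`S17.FF.pdiv o = Finsupp.single o 1`, `S17.FF.LinEq`.) -/
theorem exists_fixD_rep [CharZero K] [Fermat.Agent.S17.FF.IsFF K F] {o : Place K F} (ho : FixP α o)
    (x : Pic0 K F) (hx : ∀ σ : Γ, α σ • x = x) :
    ∃ (d : ℕ) (E : Divisor K F) (h0 : E - d • Finsupp.single o (1 : ℤ) ∈ Divisor.degZero (K := K) (F := F)),
      (∀ v, 0 ≤ E v) ∧ Divisor.degree E = d ∧ d ≤ Fermat.Agent.S17.FF.genus K F ∧ FixD α E ∧
      Pic0.mk ⟨E - d • Finsupp.single o (1 : ℤ), h0⟩ = x := by
  obtain ⟨⟨D₀, hD₀⟩, rfl⟩ := Pic0.mk_surjective x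
  have hD₀' : Divisor.degree D₀ = 0 := hD₀
  obtain ⟨d, E, hE0, hEd, hdg, -, hlin, -, huniq⟩ := Fermat.Agent.S17.FF.exists_minRep o D₀ hD₀'
  have hmk : ∀ (D D' : Divisor K F) (hD : D ∈ Divisor.degZero (K := K) (F := F))
      (hD' : D' ∈ Divisor.degZero (K := K) (F := F)),
      Pic0.mk ⟨D, hD⟩ = Pic0.mk ⟨D', hD'⟩ ↔ Fermat.Agent.S17.FF.LinEq D D' := by
    intro D D' hD hD'
    rw [Pic0.mk, Pic0.mk, QuotientAddGroup.eq_iff_sub_mem, AddSubgroup.mem_addSubgroupOf]
    rfl
  have hdeg : E - d • Finsupp.single o (1 : ℤ) ∈ Divisor.degZero (K := K) (F := F) := by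
    show Divisor.degree (E - d • Finsupp.single o (1 : ℤ)) = 0
    have h1 := Fermat.Agent.S17.FF.LBasic.degree_pdiv (K := K) (F := F) o
    rw [map_sub, hEd, map_nsmul]
    change (d : ℤ) - d • Divisor.degree (Fermat.Agent.S17.FF.pdiv o) = 0
    rw [h1]
    simp
  have hcls : Pic0.mk ⟨E - d • Finsupp.single o (1 : ℤ), hdeg⟩ = Pic0.mk ⟨D₀, hD₀⟩ :=
    (hmk _ _ hdeg hD₀).mpr hlin
  refine ⟨d, E, hdeg, hE0, hEd, hdg, ?_, hcls⟩
  intro σ
  have h1 : α σ • Pic0.mk ⟨D₀, hD₀⟩ = Pic0.mk ⟨D₀, hD₀⟩ := hx σ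
  rw [← hcls, SemilinearAut.pic0_smul_mk] at h1
  have h3 : α σ • (E - d • Finsupp.single o (1 : ℤ)) = α σ • E - d • Finsupp.single o (1 : ℤ) := by
    rw [smul_sub, smul_comm, SemilinearAut.smul_single, ho σ]
  have hdeg' : α σ • E - d • Finsupp.single o (1 : ℤ) ∈ Divisor.degZero (K := K) (F := F) := by
    rw [← h3]
    show Divisor.degree (α σ • (E - d • Finsupp.single o (1 : ℤ))) = 0
    rw [SemilinearAut.degree_smul]
    exact hdeg
  have h4 : Pic0.mk ⟨α σ • E - d • Finsupp.single o (1 : ℤ), hdeg'⟩ = Pic0.mk ⟨D₀, hD₀⟩ := by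
    rw [← hcls, ← h1]
    congr 1
    exact Subtype.ext h3.symm
  have h5 := (hmk _ _ hdeg' hD₀).mp h4
  refine (huniq d (α σ • E) ?_ (by rw [SemilinearAut.degree_smul, hEd]) h5).2 rfl
  intro v
  rw [SemilinearAut.divisor_smul_apply]
  exact hE0 _

/-- TASK S44/Old-Fin-b.  The support of an effective divisor of degree `d` has at most `d` elements (all places have degree `1`). -/
theorem card_support_le {E : Divisor K F} (hE : ∀ v, 0 ≤ E v) {d : ℕ} (hd : Divisor.degree E = d) :
    E.support.card ≤ d := by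
  have h1 : Divisor.degree E = ∑ v ∈ E.support, E v := by
    have : Divisor.degree E = E.sum fun v n => n * (v.deg : ℤ) := by
      simp [Divisor.degree, Finsupp.liftAddHom_apply]
    rw [this, Finsupp.sum]
    refine Finset.sum_congr rfl fun v _ => ?_
    rw [deg_eq_one_of_isAlgClosed v, Nat.cast_one, mul_one]
  have h2 : (E.support.card : ℤ) ≤ ∑ v ∈ E.support, E v := by
    have : (E.support.card : ℤ) = ∑ _v ∈ E.support, (1 : ℤ) := by simp
    rw [this]
    refine Finset.sum_le_sum fun v hv => ?_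
    have h3 : E v ≠ 0 := Finsupp.mem_support_iff.1 hv
    have h4 := hE v
    omega
  rw [← h1, hd] at h2
  exact_mod_cast h2

/-- TASK S44/Old-Fin-b.  The value of the fixed function `y` at a point of a `Γ`-stable divisor has few conjugates.
(`s := E.support.image (fun v' => val v' y)`; `FixF.val_smul` / `S37.Red.val_smul`: `σ (y(v)) = y(σ v)`; `FixD.apply_smul`: `σ v ∈ supp E`.) -/
theorem exists_finset_orbit_val (hy : FixF α y) {E : Divisor K F} (hE : FixD α E) {v : Place K F}
    (hv : E v ≠ 0) :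
    ∃ s : Finset K, s.card ≤ E.support.card ∧ ∀ σ : Γ, SemilinearAut.baseAut (α σ) (val v y) ∈ s := by
  classical
  refine ⟨E.support.image (fun v' => val v' y), Finset.card_image_le, fun σ => ?_⟩
  rw [← hy.val_smul σ v]
  refine Finset.mem_image_of_mem _ (Finsupp.mem_support_iff.2 ?_)
  rw [hE.apply_smul σ v]
  exact hv

/-- TASK S44/Old-Fin-c.  Finitely many places of `Ft` over finitely many values of `yt`, or poles of `yt`.
(poles: support of `poleDivisor yt` / `Semi_finite_not_reg`; value `c`: zeros of `yt - c ≠ 0` (`yt` transcendental): support of `divisorOf (yt - c)`.) -/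
theorem finite_places_over (hyt : Transcendental k yt) {R : Set k} (hR : R.Finite) :
    {Q : Place k Ft | ¬ Reg Q yt ∨ val Q yt ∈ R}.Finite := by
  have hne : ∀ c : k, yt - algebraMap k Ft c ≠ 0 := by
    intro c h0
    apply hyt
    rw [sub_eq_zero.1 h0]
    exact isAlgebraic_algebraMap c
  refine ((Semi_finite_not_reg yt).union
    (hR.biUnion fun c _ => finite_ord_ne_zero (Ω := k) (hne c))).subset ?_
  rintro Q (hQ | hQ)
  · exact Or.inl hQ
  · by_cases hreg : Reg Q yt
    · right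
      refine Set.mem_biUnion hQ ?_
      have h1 : Van Q (yt - algebraMap k Ft (val Q yt)) := (val_eq_iff Q hreg).1 rfl
      exact (ord_pos_of_van Q h1 (hne _)).ne'
    · exact Or.inl hreg

/-- TASK S44/Old-Fin-c.  Effective divisors of bounded degree supported in a finite set are finite in number.
(inject into `S → Fin (g+1)`, or `Finsupp` with support in `S.toFinset` and values in `Finset.Icc 0 g`: `Finset.finsupp`.) -/
theorem finite_effective {S : Set (Place k Ft)} (hS : S.Finite) (g : ℕ) :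
    {E : Divisor k Ft | (∀ Q, 0 ≤ E Q) ∧ Divisor.degree E ≤ g ∧ ∀ Q, E Q ≠ 0 → Q ∈ S}.Finite := by
  classical
  refine (Finset.finite_toSet (hS.toFinset.finsupp fun _ => Finset.Icc (0 : ℤ) g)).subset ?_
  rintro E ⟨h0, hd, hsupp⟩
  rw [Finset.mem_coe, Finset.mem_finsupp_iff]
  refine ⟨fun Q hQ => hS.mem_toFinset.2 (hsupp Q (Finsupp.mem_support_iff.1 hQ)), fun Q _ => ?_⟩
  rw [Finset.mem_Icc]
  refine ⟨h0 Q, ?_⟩
  have hdeg : Divisor.degree E = ∑ Q' ∈ E.support, E Q' := by
    rw [Divisor.degree, Finsupp.liftAddHom_apply, Finsupp.sum]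
    refine Finset.sum_congr rfl fun Q' _ => ?_
    rw [AddMonoidHom.coe_mulRight, deg_eq_one_of_isAlgClosed, Nat.cast_one]
    exact mul_one _
  by_cases hQ : Q ∈ E.support
  · refine le_trans ?_ hd
    rw [hdeg]
    exact Finset.single_le_sum (f := fun Q' => E Q') (fun Q' _ => h0 Q') hQ
  · rw [Finsupp.notMem_support_iff.1 hQ]
    exact Int.natCast_nonneg g

/-- TASK S44/Old-Fin-d.  The reduction of a point of a `Γ`-stable effective divisor of degree `≤ g` lies in a fixed finite set.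
(`R` := the finite set of `SmallOrb` for `n = g`.  If `v` is in the chart `y`: `reg_rP_iff`, `isCenIn_rP` (applied to `b = y`, `intA_self`) give `val (rP v) yt = res (y(v)) ∈ R` by `exists_finset_orbit_val`, `card_support_le`.
Otherwise `yt` is not regular at `rP v` (`reg_rP_iff`).) -/
theorem rP_mem_of_fixD (hG : Good V y yt) (hy : FixF α y) (g : ℕ) {R : Set k}
    (hR : ∀ (c : K) (s : Finset K), c ∈ A → s.card ≤ g →
      (∀ σ : Γ, SemilinearAut.baseAut (α σ) c ∈ s) → res π c ∈ R)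
    {E : Divisor K F} (hE0 : ∀ v, 0 ≤ E v) (hEd : Divisor.degree E ≤ g) (hE : FixD α E)
    {v : Place K F} (hv : E v ≠ 0) :
    ¬ Reg (rP hG v) yt ∨ val (rP hG v) yt ∈ R := by
  by_cases hc : InChart A y v
  · right
    have h1 := (isCenIn_rP hG hc).2.2 y yt intA_self hG.h₀.red_y
    rw [h1]
    obtain ⟨s, hs, hs'⟩ := exists_finset_orbit_val α hy hE hv
    have hdeg0 : 0 ≤ Divisor.degree E := Fermat.Agent.S26.degree_nonneg hE0
    have h2 : E.support.card ≤ (Divisor.degree E).toNat :=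
      card_support_le hE0 (Int.toNat_of_nonneg hdeg0).symm
    refine hR _ s hc.2 ?_ hs'
    omega
  · left
    exact fun h => hc ((reg_rP_iff hG v).1 h)

/-- TASK S44/Old-Fin-e.  **(FIN)**.  Assembly: `exists_fixD_rep`; `rD (E - d o) = rD E - d • single (rP o) 1`; `rD E` is effective (`rD_nonneg`) of degree `d ≤ g` (`degree_rD`), supported (`rD_apply`: a nonzero finsum has a nonzero term) in the finite
set of `finite_places_over`; `finite_effective`; the image of a finite set (`Set.Finite.image2` over `d ≤ g`) is finite. -/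
theorem finite_sp_fixed [CharZero K] [Fermat.Agent.S17.FF.IsFF K F] (hG : Good V y yt)
    (hy : FixF α y) {o : Place K F} (ho : FixP α o) (hsmall : SmallOrb π α) :
    {s : Pic k Ft | ∃ x : Pic0 K F, (∀ σ : Γ, α σ • x = x) ∧ sp hG x = s}.Finite := by
  obtain ⟨g, hg⟩ : ∃ g : ℕ, g = Fermat.Agent.S17.FF.genus K F := ⟨_, rfl⟩
  have hRfin := hsmall g
  obtain ⟨R, hRdef⟩ : ∃ R : Set k, R = {r : k | ∃ (c : K) (s : Finset K), c ∈ A ∧ res π c = r ∧
    s.card ≤ g ∧ ∀ σ : Γ, SemilinearAut.baseAut (α σ) c ∈ s} := ⟨_, rfl⟩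
  rw [← hRdef] at hRfin
  have hR : ∀ (c : K) (s : Finset K), c ∈ A → s.card ≤ g →
      (∀ σ : Γ, SemilinearAut.baseAut (α σ) c ∈ s) → res π c ∈ R := by
    intro c s hc hs hσ
    rw [hRdef]
    exact ⟨c, s, hc, rfl, hs, hσ⟩
  have hS := finite_places_over (Ft := Ft) hG.h₀.trans hRfin
  have hE := finite_effective hS g
  refine (Set.Finite.image2 (fun (E : Divisor k Ft) (d : ℕ) =>
    (QuotientAddGroup.mk (E - d • Finsupp.single (rP hG o) (1 : ℤ)) : Pic k Ft)) hE
    (Set.finite_Iic g)).subset ?_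
  rintro s ⟨x, hx, rfl⟩
  obtain ⟨d, E, h0, hE0, hEd, hdg, hEfix, rfl⟩ := exists_fixD_rep α ho x hx
  have hdg' : Divisor.degree E ≤ (g : ℤ) := by
    rw [hEd, hg]
    exact_mod_cast hdg
  refine ⟨rD hG E, ⟨rD_nonneg hG hE0, ?_, ?_⟩, d, ?_, ?_⟩
  · rw [degree_rD]
    exact hdg'
  · intro Q hne
    by_contra hQ
    apply hne
    rw [rD_apply]
    refine finsum_mem_eq_zero_of_forall_eq_zero (s := {v | rP hG v = Q}) fun v hv => ?_
    have hv : rP hG v = Q := hv
    by_contra hEv
    exact hQ (hv ▸ rP_mem_of_fixD α hG hy g hR hE0 hdg' hEfix hEv)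
  · rw [Set.mem_Iic, hg]
    exact hdg
  · rw [sp_mk]
    show (QuotientAddGroup.mk _ : Pic k Ft) =
      QuotientAddGroup.mk (rD hG (E - d • Finsupp.single o (1 : ℤ)))
    rw [map_sub, map_nsmul, rD_single]

/-- TASK S44/Old-Fin-e.  A finite set which is the image of a subgroup is killed by some `n > 0`.
(the set is the carrier of `AddSubgroup.map (sp hG) (fixed subgroup)`; `card_nsmul_eq_zero'` / `Nat.card`.) -/
theorem exists_nsmul_sp_eq_zero [CharZero K] [Fermat.Agent.S17.FF.IsFF K F] (hG : Good V y yt)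
    (hy : FixF α y) {o : Place K F} (ho : FixP α o) (hsmall : SmallOrb π α) :
    ∃ n : ℕ, 0 < n ∧ ∀ x : Pic0 K F, (∀ σ : Γ, α σ • x = x) → n • sp hG x = 0 := by
  let H : AddSubgroup (Pic0 K F) :=
    { carrier := {x | ∀ σ : Γ, α σ • x = x}
      add_mem' := fun {a b} ha hb σ => by rw [smul_add, ha σ, hb σ]
      zero_mem' := fun σ => smul_zero _
      neg_mem' := fun {a} ha σ => by rw [smul_neg, ha σ] }
  have hfin : Finite (AddSubgroup.map (sp hG) H) := by
    refine Set.Finite.to_subtype ((finite_sp_fixed α hG hy ho hsmall).subset ?_)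
    rintro s ⟨x, hx, rfl⟩
    exact ⟨x, hx, rfl⟩
  refine ⟨Nat.card (AddSubgroup.map (sp hG) H), Nat.card_pos, fun x hx => ?_⟩
  have h1 := card_nsmul_eq_zero' (G := AddSubgroup.map (sp hG) H)
    (x := ⟨sp hG x, ⟨x, hx, rfl⟩⟩)
  exact congrArg Subtype.val h1

end Fermat.Agent.S44.Old
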