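import Fermat.Agent.S19.Geo0.Rat

/-!
# S44 / Old / Full : functions of full residue degree evaluate compatibly with the reduction map

Setting of `S19/Geo0`: `Good V y yt`, `rP hG`, `rD hG`.  Let `(u, ut)` be ANY `IsPreChart V u ut` (i.e. `red u = ut` is transcendental and
`[F : K(u)] ≤ [Ft : k(ut)]`), not necessarily the coordinate `y`.  Then `u` has no pole on the classes where `ut` is regular (degree count), and
the functions integral over `A[u]` evaluate compatibly with `rP`.
-/

set_option autoImplicit false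
set_option linter.unusedSectionVars false

namespace Fermat.Agent.S44.Old

open AlgebraicCurve Fermat.Agent.S26 Fermat.Agent.S37.Red Fermat.Agent.S19.Geo0 Polynomial IntermediateField

variable {K k : Type*} [Field K] [Field k] {A : ValuationSubring K} {π : A →+* k}
variable {F Ft : Type*} [Field F] [Field Ft] [Algebra K F] [Algebra k Ft]
variable [IsAlgClosed K] [FF1 K F] [IsAlgClosed k] [FF1 k Ft]
variable {V : VFF A π F Ft} {y : F} {yt : Ft}

/-- (helper) an effective divisor of degree `≤ 0` is `0`. -/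
theorem Full_eq_zero_of_nonneg {Ω 𝕃 : Type*} [Field Ω] [Field 𝕃] [Algebra Ω 𝕃] [IsAlgClosed Ω]
    [FF1 Ω 𝕃] {D : Divisor Ω 𝕃} (h : ∀ v, 0 ≤ D v) (hd : Divisor.degree D ≤ 0) : D = 0 := by
  have h0 : Divisor.degree D = 0 := le_antisymm hd (degree_nonneg h)
  rw [DivisorOf.degree_eq_sum, Finsupp.sum,
    Finset.sum_eq_zero_iff_of_nonneg (fun v _ => mul_nonneg (h v) (by positivity))] at h0
  ext v
  by_contra hv
  have h1 := h0 v (Finsupp.mem_support_iff.2 hv)
  rw [deg_eq_one_of_isAlgClosed, Nat.cast_one, mul_one] at h1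
  exact hv h1

/-- TASK S44/Old-Full-a.  **(G1)**  `rD (u)_∞ = (ut)_∞`.
Proof.  `Z, P` := zero / pole divisor of `u`, `Zt, Pt` those of `ut`.  `rD Z - rD P = Zt - Pt` (`rD_divisorOf`, `divisorOf_eq_sub`), `rD Z, rD P ≥ 0` (`rD_nonneg`), and at every `Q`
one of `Zt Q`, `Pt Q` is `0`: so `Pt Q ≤ rD P Q` for all `Q`.  Degrees: `deg (rD P) = deg P = [F : K(u)] ≤ [Ft : k(ut)] = deg Pt` (`degree_rD`, `S26.degree_poleDivisor`; `u` is transcendental
because `ut` is: otherwise `u` is a constant `c`, `c ∈ A`, `ut = res c`).  An effective divisor `rD P - Pt` of degree `≤ 0` is `0`. -/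
theorem rD_poleDivisor_of_isPreChart (hG : Good V y yt) {u : F} {ut : Ft} (hu : IsPreChart V u ut) :
    rD hG (poleDivisor (Ω := K) u) = poleDivisor (Ω := k) ut := by
  have hut0 : ut ≠ 0 := by
    rintro rfl
    exact hu.trans isAlgebraic_zero
  have huT : Transcendental K u := transcendental_of_red V hu.red_y hu.trans
  have hdiv := rD_divisorOf hG hu.red_y hut0
  rw [divisorOf_eq_sub, divisorOf_eq_sub, map_sub] at hdiv
  have hZ : ∀ Q, 0 ≤ rD hG (zeroDivisor (Ω := K) u) Q :=
    rD_nonneg hG (fun v => by rw [zeroDivisor_apply]; exact le_max_left _ _)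
  have hP : ∀ Q, 0 ≤ rD hG (poleDivisor (Ω := K) u) Q :=
    rD_nonneg hG (fun v => by rw [poleDivisor_apply]; exact le_max_left _ _)
  have hle : ∀ Q, 0 ≤ (rD hG (poleDivisor (Ω := K) u) - poleDivisor (Ω := k) ut) Q := by
    intro Q
    have h1 := DFunLike.congr_fun hdiv Q
    rw [Finsupp.sub_apply, Finsupp.sub_apply, zeroDivisor_apply, poleDivisor_apply] at h1
    rw [Finsupp.sub_apply, poleDivisor_apply]
    have h2 := hZ Q
    have h3 := hP Q
    rcases le_total 0 (Q.ord ut) with h | h
    · rw [max_eq_left (by omega)]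
      omega
    · rw [max_eq_left h, max_eq_right (by omega)] at h1
      rw [max_eq_right (by omega)]
      omega
  have hdeg : Divisor.degree (rD hG (poleDivisor (Ω := K) u) - poleDivisor (Ω := k) ut) ≤ 0 := by
    rw [map_sub, degree_rD, degree_poleDivisor huT, degree_poleDivisor hu.trans]
    have := hu.deg
    omega
  exact sub_eq_zero.1 (Full_eq_zero_of_nonneg hle hdeg)

/-- TASK S44/Old-Full-a.  (`K⟮u - a⟯ = K⟮u⟯`, `k⟮ut - ā⟯ = k⟮ut⟯`; `RatPolar_transcendental_sub`.) -/
theorem IsPreChart.sub_const {u : F} {ut : Ft} (hu : IsPreChart V u ut) {a : K} (ha : a ∈ A) :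
    IsPreChart V (u - algebraMap K F a) (ut - algebraMap k Ft (res π a)) :=
  Fermat.Agent.S37.Red.IsPreChart.sub_const hu ha

/-- TASK S44/Old-Full-a.  Copy of `Geo0.rD_zeroDivisor_sub` with `rD_poleDivisor_of_isPreChart`. -/
theorem rD_zeroDivisor_sub_of_isPreChart (hG : Good V y yt) {u : F} {ut : Ft}
    (hu : IsPreChart V u ut) {a : K} (ha : a ∈ A) :
    rD hG (zeroDivisor (Ω := K) (u - algebraMap K F a)) =
      zeroDivisor (Ω := k) (ut - algebraMap k Ft (res π a)) := by
  have hred : V.Red (u - algebraMap K F a) (ut - algebraMap k Ft (res π a)) :=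
    hu.red_y.sub (V.red_const ha)
  have hne : ut - algebraMap k Ft (res π a) ≠ 0 := by
    intro h0
    exact RatPolar_transcendental_sub hu.trans (res π a) (h0 ▸ isAlgebraic_zero)
  have h1 : zeroDivisor (Ω := K) (u - algebraMap K F a)
      = divisorOf (u - algebraMap K F a) + poleDivisor (Ω := K) u := by
    rw [divisorOf_eq_sub, RatPolar_poleDivisor_sub, sub_add_cancel]
  have h2 : zeroDivisor (Ω := k) (ut - algebraMap k Ft (res π a))
      = divisorOf (ut - algebraMap k Ft (res π a)) + poleDivisor (Ω := k) ut := by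
    rw [divisorOf_eq_sub, RatPolar_poleDivisor_sub, sub_add_cancel]
  rw [h1, h2, map_add, rD_divisorOf hG hred hne, rD_poleDivisor_of_isPreChart hG hu]

/-- TASK S44/Old-Full-b.  **(G2)**  `a := u(v) ∈ A`; `v` is a zero of `u - a`, so (`RatPolar_apply_le_rD`, `rD_zeroDivisor_sub_of_isPreChart`) `rP v` is a zero of `ut - ā`. -/
theorem reg_val_rP_of_inChart (hG : Good V y yt) {u : F} {ut : Ft} (hu : IsPreChart V u ut)
    {v : Place K F} (hv : InChart A u v) :
    Reg (rP hG v) ut ∧ val (rP hG v) ut = res π (val v u) := by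
  obtain ⟨hreg, ha⟩ := hv
  have hpc := hu.sub_const ha
  have hne : ut - algebraMap k Ft (res π (val v u)) ≠ 0 := by
    intro h0
    exact hpc.trans (h0 ▸ isAlgebraic_zero)
  have hne' : u - algebraMap K F (val v u) ≠ 0 := hpc.red_y.ne_zero hne
  have hvan : Van v (u - algebraMap K F (val v u)) := van_sub_val v hreg
  have hpos : 0 < v.ord (u - algebraMap K F (val v u)) := ord_pos_of_van v hvan hne'
  have h1 := RatPolar_apply_le_rD hG (D := zeroDivisor (Ω := K) (u - algebraMap K F (val v u)))
    (fun w => by rw [zeroDivisor_apply]; exact le_max_left _ _) v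
  rw [rD_zeroDivisor_sub_of_isPreChart hG hu ha, zeroDivisor_apply, zeroDivisor_apply] at h1
  have hpos' : 0 < (rP hG v).ord (ut - algebraMap k Ft (res π (val v u))) := by
    rcases le_total ((rP hG v).ord (ut - algebraMap k Ft (res π (val v u)))) 0 with h | h
    · rw [max_eq_left h, max_eq_right hpos.le] at h1
      omega
    · rw [max_eq_right h, max_eq_right hpos.le] at h1
      omega
  have hvan' : Van (rP hG v) (ut - algebraMap k Ft (res π (val v u))) := van_of_ord_pos _ hpos'
  refine ⟨?_, val_eq_of_van _ hvan'⟩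
  have := (hvan'.reg _).add _ (reg_algebraMap (rP hG v) (res π (val v u)))
  rwa [sub_add_cancel] at this

/-- TASK S44/Old-Full-b.  If `v` is not in the chart `u` then `u⁻¹` is regular at `v` with value in `m_A` (`van_inv_of_not_reg`, `inv_mem_nonunits_of_not_mem`, `val_inv`);
apply `reg_val_rP_of_inChart` to `hu.inv` (`S37.Red.IsPreChart.inv`): `ut⁻¹` vanishes at `rP v`, so `ut` is not regular there (`not_reg_inv_of_van`). -/
theorem inChart_of_reg_rP (hG : Good V y yt) {u : F} {ut : Ft} (hu : IsPreChart V u ut)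
    {v : Place K F} (h : Reg (rP hG v) ut) : InChart A u v := by
  by_contra hnc
  have hut : ut ≠ 0 := by
    rintro rfl
    exact hu.trans isAlgebraic_zero
  have key : InChart A u⁻¹ v ∧ val v u⁻¹ ∈ A.nonunits := by
    by_cases hreg : Reg v u
    · have hval : val v u ∉ A := fun hval => hnc ⟨hreg, hval⟩
      have hnv : ¬ Van v u := by
        intro hvan
        apply hval
        rw [val_eq_zero_of_van v hvan]
        exact zero_mem _
      have h1 : val v u⁻¹ ∈ A.nonunits := by
        rw [val_inv v hreg]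
        exact inv_mem_nonunits_of_not_mem hval
      exact ⟨⟨reg_inv_of_not_van v hnv, mem_of_mem_nonunits h1⟩, h1⟩
    · have hvan := van_inv_of_not_reg v hreg
      have h0 : val v u⁻¹ = 0 := val_eq_zero_of_van v hvan
      refine ⟨⟨hvan.reg v, by rw [h0]; exact zero_mem _⟩, ?_⟩
      rw [h0]
      exact (res_eq_zero_iff V.π_surjective (zero_mem _)).mp res_zero
  obtain ⟨hin, hnu⟩ := key
  obtain ⟨h1, h2⟩ := reg_val_rP_of_inChart hG hu.inv hin
  rw [(res_eq_zero_iff V.π_surjective hin.2).mpr hnu] at h2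
  have hvan : Van (rP hG v) ut⁻¹ := (val_eq_zero_iff _ h1).mp h2
  have := not_reg_inv_of_van _ hvan (inv_ne_zero hut)
  rw [inv_inv] at this
  exact this h

/-- TASK S44/Old-Full-b.  `rP v` is a centre of `v` for the prechart `u`.
Proof.  `Q := rP v`; `ut` is regular at `Q`, so every `v'` in the class of `Q` lies in the chart `u` (`inChart_of_reg_rP`), so `b` is regular at `v'` (`IntA.intK`, `IntK.reg`); `Geo0.val_red`. -/
theorem val_rP_of_intA (hG : Good V y yt) {u : F} {ut : Ft} (hu : IsPreChart V u ut)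
    {v : Place K F} (hv : InChart A u v) {b : F} {bt : Ft} (hb : IntA A u b) (hbt : V.Red b bt) :
    val v b ∈ A ∧ val (rP hG v) bt = res π (val v b) := by
  have hQ : Reg (rP hG v) ut := (reg_val_rP_of_inChart hG hu hv).1
  have hreg : ∀ v' : Place K F, rP hG v' = rP hG v → Reg v' b := by
    intro v' hv'
    have h1 : InChart A u v' := inChart_of_reg_rP hG hu (by rw [hv']; exact hQ)
    exact hb.intK.reg v' h1.1
  obtain ⟨-, h2⟩ := Fermat.Agent.S19.Geo0.val_red hG hbt hreg
  obtain ⟨h3, h4⟩ := h2 v rfl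
  exact ⟨h3, h4.symm⟩

end Fermat.Agent.S44.Old
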