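import Fermat.Agent.S44.Old.Spec
import Fermat.Agent.S44.Old.Abs
import Fermat.Agent.S44.Defs
import Fermat.Agent.S44.Eis.Red
import Fermat.Agent.S37.DivA
import Fermat.Agent.S37.Mod.Main
import Fermat.Agent.S19.Geo0.Inst
import Fermat.Agent.S19.LD.Pull
import Fermat.Agent.S32.KJ

/-!
# S44 / Old / Mod : the modular inputs of OLD (route B)

Level `M`, `p ≥ 5`, `p ∤ M`, `A ∣ p`.  Good coordinate at level `M`: `xh M = j(q^M)` (`Crux.GM.goodCoord_j`).

* `TJ M ℓ`                : `T_ℓ` on `JZero M` (Prelude `heckeOperatorAlong`) as a `ℤ`-linear map;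
* `gal_TJ`                : commutes with `G_ℚ`;
* `opOf_TJ_torsion`       : a polynomial in the `T_ℓ` which kills all `Kum M m` kills the torsion of `JZero M`;
* `exists_compat_alpha/beta` : `Compat` for the two degeneracy maps `FF M → FF (M ℓ)`;
* `red_heckeF`            : reduction commutes with the multiplicative Hecke operator.
-/

set_option autoImplicit false

open AlgebraicCurve ModularCurve

namespace Fermat.Agent.S44.Old

open Fermat.Agent.ES Fermat.Agent.SS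
open Fermat.Agent.S37.Mod (resF gaussVFF xQ xk RedRel)
open Fermat.Agent.S37.Red (IsPreChart)
open Fermat.Agent.S19.Geo0 (Good rP rD)
open Fermat.Agent.Crux (GM.GoodCoord)

noncomputable section

/-- the integral `q`-expansion of the good coordinate `j(q^M)`. -/
def xh (M : ℕ) [NeZero M] : LaurentSeries ℤ := Fermat.Agent.S28.V ℤ M (Fermat.Agent.S28.J ℤ)

theorem exists_goodCoord (M : ℕ) [NeZero M] {p : ℕ} (hp : p.Prime) (hp5 : 5 ≤ p) (hM : ¬ p ∣ M) :
    ∃ n, GM.GoodCoord M p (xh M) 1728 n :=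
  Fermat.Agent.Crux.GM.goodCoord_j M p hp hp5 hM

/-- `T_ℓ` on `J₀(M)`. -/
def TJ (M ℓ : ℕ) [NeZero M] [NeZero ℓ] : Module.End ℤ (JZero M) :=
  (heckeOperatorAlong Qb M ℓ).toIntLinearMap

theorem TJ_apply (M ℓ : ℕ) [NeZero M] [NeZero ℓ] (x : JZero M) :
    TJ M ℓ x = heckeOperatorAlong Qb M ℓ x := rfl

/-! ### Galois -/

/-- (task Old-Mod-Gal) over an algebraically closed field all inertia degrees are `1`. -/
theorem ModGal_inertiaDegAlong_eq_one {K F F' : Type*} [Field K] [Field F] [Field F'] [Algebra K F]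
    [Algebra K F'] [IsAlgClosed K] [Fermat.Agent.S26.FF1 K F] [Fermat.Agent.S26.FF1 K F']
    (φ : F →ₐ[K] F') (hφ : φ.toRingHom.IsIntegral) (w : Place K F') :
    w.inertiaDegAlong φ hφ = 1 := by
  let _ := algebraAlong φ
  have := isScalarTower_along φ
  have := isIntegral_along φ hφ
  have h := w.deg_restrict_mul_inertiaDeg (F := F)
  rw [Fermat.Agent.S26.deg_eq_one_of_isAlgClosed, Fermat.Agent.S26.deg_eq_one_of_isAlgClosed,
    one_mul] at h
  exact h

/-- TASK S44/Old-Mod-Gal.  `φ_*` commutes with semilinear automorphisms.  (`Finsupp.induction_linear`, `Divisor.pushforwardAlong_single`, `SemilinearAut.smul_single`, `S19.LD.restrictAlong_smul`; the inertia degree is invariant: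
either both are `1` (`S37.inertiaDegAlong_eq_one`) - then add the hypotheses you need, the only use is `gal_TJ` - or by transport.) -/
theorem pushforwardAlong_smul {K F F' : Type*} [Field K] [Field F] [Field F'] [Algebra K F]
    [Algebra K F'] [IsAlgClosed K] [Fermat.Agent.S26.FF1 K F] [Fermat.Agent.S26.FF1 K F']
    (φ : F →ₐ[K] F') (hφ : φ.toRingHom.IsIntegral)
    (g : SemilinearAut K F) (g' : SemilinearAut K F') (hg : ∀ f : F, φ (g • f) = g' • φ f)
    (D : Divisor K F') :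
    Divisor.pushforwardAlong φ hφ (g' • D) = g • Divisor.pushforwardAlong φ hφ D := by
  induction D using Finsupp.induction_linear with
  | zero => simp
  | add D E hD hE => rw [smul_add, map_add, map_add, hD, hE, smul_add]
  | single w n =>
    rw [SemilinearAut.smul_single, Divisor.pushforwardAlong_single,
      Divisor.pushforwardAlong_single, SemilinearAut.smul_single,
      Fermat.Agent.S19.LD.restrictAlong_smul φ hφ g g' hg, ModGal_inertiaDegAlong_eq_one,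
      ModGal_inertiaDegAlong_eq_one]

theorem ModGal_heckeAlphaBar_gal (M ℓ : ℕ) [NeZero M] [NeZero ℓ] (σ : GQ) (f : FF M) :
    heckeAlphaBar Qb M ℓ (arithmeticGalois (modularFunctionFieldFull M) σ • f) =
      arithmeticGalois (modularFunctionFieldFull (M * ℓ)) σ • heckeAlphaBar Qb M ℓ f := by
  apply Subtype.ext
  rw [coe_heckeAlphaBar, coe_arithmeticGalois_smul, coe_arithmeticGalois_smul, coe_heckeAlphaBar]

theorem ModGal_heckeBetaBar_gal (M ℓ : ℕ) [NeZero M] [NeZero ℓ] (σ : GQ) (f : FF M) :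
    heckeBetaBar Qb M ℓ (arithmeticGalois (modularFunctionFieldFull M) σ • f) =
      arithmeticGalois (modularFunctionFieldFull (M * ℓ)) σ • heckeBetaBar Qb M ℓ f := by
  apply Subtype.ext
  rw [coe_heckeBetaBar, coe_arithmeticGalois_smul, coe_arithmeticGalois_smul, coe_heckeBetaBar]
  exact (Fermat.Agent.S28.Build.coeffMap_V _ _ _).symm

/-- (task Old-Mod-Gal) the Hecke correspondence on divisors commutes with `G_ℚ`. -/
theorem ModGal_correspondence_smul (M ℓ : ℕ) [NeZero M] [NeZero ℓ] [NeZero (M * ℓ)]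
    [HasPrincipalDivisors Qb (FF (M * ℓ))] (σ : GQ)
    (hα : (heckeAlphaBar Qb M ℓ).toRingHom.IsIntegral)
    (hβ : (heckeBetaBar Qb M ℓ).toRingHom.IsIntegral) (D : Divisor Qb (FF M)) :
    arithmeticGalois (modularFunctionFieldFull M) σ •
      Divisor.correspondence (heckeBetaBar Qb M ℓ) (heckeAlphaBar Qb M ℓ) hβ hα D
    = Divisor.correspondence (heckeBetaBar Qb M ℓ) (heckeAlphaBar Qb M ℓ) hβ hα
        (arithmeticGalois (modularFunctionFieldFull M) σ • D) := by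
  have h1 := Fermat.Agent.S19.LD.pullbackAlong_smul (heckeBetaBar Qb M ℓ) hβ
    (arithmeticGalois (modularFunctionFieldFull M) σ)
    (arithmeticGalois (modularFunctionFieldFull (M * ℓ)) σ) (ModGal_heckeBetaBar_gal M ℓ σ) D
  have h2 := pushforwardAlong_smul (heckeAlphaBar Qb M ℓ) hα
    (arithmeticGalois (modularFunctionFieldFull M) σ)
    (arithmeticGalois (modularFunctionFieldFull (M * ℓ)) σ) (ModGal_heckeAlphaBar_gal M ℓ σ) (Divisor.pullbackAlong (heckeBetaBar Qb M ℓ) hβ D)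
  rw [Divisor.correspondence_apply, Divisor.correspondence_apply, h1, h2]

/-- TASK S44/Old-Mod-Gal.  `T_ℓ` commutes with `G_ℚ` on `J₀(M)`.
(`x = Pic0.mk D`; `S37.heckeOperatorAlong_mk`, `S37.DivA_gal_smul_mk`; on divisors `S19.LD.pullbackAlong_smul` for `β` and `pushforwardAlong_smul` for `α`, with `g = gal M σ`, `g' = gal (M ℓ) σ`; the hypotheses `hg` are
`Subtype.ext` + `coeffMap_qExpand` (β) resp. `rfl` (α).) -/
theorem gal_TJ (M ℓ : ℕ) [NeZero M] [NeZero ℓ] (σ : GQ) (x : JZero M) :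
    σ • TJ M ℓ x = TJ M ℓ (σ • x) := by
  have : NeZero (M * ℓ) := ⟨Nat.mul_ne_zero (NeZero.ne M) (NeZero.ne ℓ)⟩
  have := Fermat.Agent.S37.hasPrincipalDivisors_FF (M * ℓ)
  obtain ⟨D, rfl⟩ := Pic0.mk_surjective x
  rw [TJ_apply, TJ_apply, Fermat.Agent.S37.heckeOperatorAlong_mk, Fermat.Agent.S37.DivA_gal_smul_mk,
    Fermat.Agent.S37.DivA_gal_smul_mk, Fermat.Agent.S37.heckeOperatorAlong_mk]
  congr 1
  apply Subtype.ext
  exact ModGal_correspondence_smul M ℓ σ (heckeAlphaBarIntegral M ℓ) (heckeBetaBarIntegral M ℓ)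
    (D : Divisor Qb (FF M))

/-! ### torsion -/

/-- TASK S44/Old-Mod-Tors.  `Kum M m → J₀(M)` is Hecke equivariant.
(`x = Kum.mk f`; `S32.KJ_hom_mk`, `heckeKum_mk`, `S37.heckeOperatorAlong_mk`; `m • (T (KJ_D f)) = T (div f) = div (heckeF f)` by `S37.correspondence_apply_of_ord`, and `Divisor` is torsion free, so `T (KJ_D f) = KJ_D (heckeF f)`.) -/
theorem KJ_hom_heckeKum (M ℓ m : ℕ) [NeZero M] [NeZero ℓ] (hℓ : ℓ.Prime) (hℓM : ¬ ℓ ∣ M)
    (hm : 0 < m) (x : Kum M m) :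
    Fermat.Agent.S32.KJ_hom M m hm (heckeKum M ℓ hℓ hℓM m x) =
      TJ M ℓ (Fermat.Agent.S32.KJ_hom M m hm x) := by
  obtain ⟨f, rfl⟩ := Kum.mk_surjective x
  have hne : NeZero (M * ℓ) := ⟨Nat.mul_ne_zero (NeZero.ne M) (NeZero.ne ℓ)⟩
  have hpd := Fermat.Agent.S37.hasPrincipalDivisors_FF (M * ℓ)
  have hm0 : (m : ℤ) ≠ 0 := by exact_mod_cast hm.ne'
  rw [heckeKum_mk, Fermat.Agent.S32.KJ_hom_mk, Fermat.Agent.S32.KJ_hom_mk, TJ_apply,
    Fermat.Agent.S37.heckeOperatorAlong_mk]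
  refine congrArg Pic0.mk (Subtype.ext ?_)
  change Fermat.Agent.S32.KJ_D Qb m (heckeF M ℓ hℓ hℓM ((f : (FF M)ˣ) : FF M)) =
    Divisor.correspondence (heckeBetaBar Qb M ℓ) (heckeAlphaBar Qb M ℓ) (heckeBetaBarIntegral M ℓ)
      (heckeAlphaBarIntegral M ℓ) (Fermat.Agent.S32.KJ_D Qb m ((f : (FF M)ˣ) : FF M))
  ext P
  have h1 := Fermat.Agent.S37.correspondence_apply_of_ord ℓ hℓ hℓM
    (D := (m : ℤ) • Fermat.Agent.S32.KJ_D Qb m ((f : (FF M)ˣ) : FF M))
    (g := ((f : (FF M)ˣ) : FF M)) (f : (FF M)ˣ).ne_zero (fun Q => by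
      rw [Fermat.Agent.S32.KJ_smul_D _ _ f.2, Fermat.Agent.S26.divisorOf_apply]) P
  rw [map_zsmul, Finsupp.smul_apply, smul_eq_mul] at h1
  rw [Fermat.Agent.S32.KJ_D_apply, ← h1, Int.mul_ediv_cancel_left _ hm0]

/-- `T_ℓ` on `J₀(M)` indexed by `GP S`. -/
def TJS (M : ℕ) [NeZero M] (S : Finset ℕ) (ℓ : GP S) : Module.End ℤ (JZero M) :=
  haveI : NeZero ℓ.1 := ⟨ℓ.2.1.ne_zero⟩
  TJ M ℓ.1

/-- TASK S44/Old-Mod-Tors.  (`FreeAlgebra.induction` as in `ES.lift_intertwine`: `KJ_hom (P x) = P (KJ_hom x)`; `S32.KJ_hom_surj`: every `x` with `n • x = 0` is `KJ_hom` of some class in `Kum M n`.) -/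
theorem opOf_TJ_torsion (M : ℕ) [NeZero M] (S : Finset ℕ)
    (hMS : ∀ q : ℕ, q.Prime → q ∣ M → q ∈ S) (P : FreeAlgebra ℤ (GP S))
    (hP : ∀ m : ℕ, 0 < m → FreeAlgebra.lift ℤ (fun ℓ : GP S => heckeT M m (ℓ.good hMS)) P = 0)
    (n : ℕ) (hn : 0 < n) (x : JZero M) (hx : n • x = 0) : opOf (TJS M S) P x = 0 := by
  obtain ⟨y, rfl⟩ := Fermat.Agent.S32.KJ_hom_surj M n hn x (by rw [natCast_zsmul]; exact hx)
  have key : ∀ (Q : FreeAlgebra ℤ (GP S)) (y : Kum M n),
      Fermat.Agent.S32.KJ_hom M n hn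
        (FreeAlgebra.lift ℤ (fun ℓ : GP S => heckeT M n (ℓ.good hMS)) Q y) =
        opOf (TJS M S) Q (Fermat.Agent.S32.KJ_hom M n hn y) := by
    intro Q
    induction Q using FreeAlgebra.induction with
    | grade0 r =>
      intro y
      rw [AlgHom.commutes, AlgHom.commutes, Module.algebraMap_end_apply,
        Module.algebraMap_end_apply, map_zsmul]
    | grade1 i =>
      intro y
      rw [opOf, FreeAlgebra.lift_ι_apply, FreeAlgebra.lift_ι_apply]
      have : NeZero i.1 := ⟨i.2.1.ne_zero⟩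
      exact KJ_hom_heckeKum M i.1 n i.2.1 (i.good hMS).2.2 hn y
    | mul a b ha hb =>
      intro y
      rw [map_mul, map_mul, Module.End.mul_apply, Module.End.mul_apply, ha, hb]
    | add a b ha hb =>
      intro y
      rw [map_add, map_add, LinearMap.add_apply, LinearMap.add_apply, map_add, ha, hb]
  rw [← key, hP n hn, LinearMap.zero_apply, map_zero]

/-! ### reduction -/

variable {M : ℕ} [NeZero M] {A : ValuationSubring Qb}

/-- TASK S44/Old-Mod-Red.  For elements of `FF M` the relations `RedTo` (quotient of arbitrary integral series) and `RedRel M` (quotient of integral elements of `FF M`) agree.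
(`⇐` is trivial.  `⇒`: `f = 0`: `u = 0`.  Otherwise `S37.Mod.exists_redRel_scale`: `RedRel M A (c f) u'`, `u' ≠ 0`; so `RedTo A (c f) u'`; dividing (`RedTo.mul`, `RedTo.inv`-type lemmas of `SS/Formal/Red.lean`) one gets that `c⁻¹ ∈ A`:
if not, `c ∈ m_A` and `RedTo A (c f) 0` by `RedTo.mul` with the constant `c`, contradiction with uniqueness; multiply `RedRel M A (c f) u'` by `RedRel.const c⁻¹` and use uniqueness of `RedTo`.) -/
theorem redRel_iff_redTo (f : FF M) (u : LaurentSeries (kA A)) :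
    RedRel M A (f : LaurentSeries Qb) u ↔ RedTo A (f : LaurentSeries Qb) u := by
  have key : ∀ (g : LaurentSeries Qb) (v : LaurentSeries (kA A)), RedRel M A g v → RedTo A g v := by
    rintro g v ⟨a, b, -, -, hb, hf, hu⟩
    exact ⟨a, b, hb, hf, hu.symm⟩
  refine ⟨key _ _, fun h => ?_⟩
  by_cases hf : f = 0
  · subst hf
    have h0 : RedTo A ((0 : FF M) : LaurentSeries Qb) 0 := key _ _ RedRel.zero
    rw [h.unique h0]
    exact RedRel.zero
  · have hf' : (f : LaurentSeries Qb) ≠ 0 := fun h0 => hf (Subtype.ext h0)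
    obtain ⟨c, u', hc, hu', hrel⟩ := Fermat.Agent.S37.Mod.exists_redRel_scale (A := A) f hf
    have hcL : cst c ≠ 0 := (map_ne_zero _).2 hc
    have h1 := h.mul ((key _ _ hrel).inv hu')
    have e1 : (f : LaurentSeries Qb) * (cst c * (f : LaurentSeries Qb))⁻¹ = cst c⁻¹ := by
      rw [mul_inv, mul_comm (cst c)⁻¹, mul_inv_cancel_left₀ hf']
      exact (map_inv₀ (algebraMap Qb (LaurentSeries Qb)) c).symm
    rw [e1] at h1
    obtain ⟨a, ha, hr⟩ := h1.const
    have h2 := (RedRel.const (M := M) a).mul hrel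
    have e2 : algebraMap Qb (LaurentSeries Qb) (a : Qb) * (cst c * (f : LaurentSeries Qb))
        = (f : LaurentSeries Qb) := by
      rw [ha, map_inv₀, inv_mul_cancel_left₀ hcL]
    have e3 : algebraMap (kA A) (LaurentSeries (kA A)) (IsLocalRing.residue A a) * u' = u := by
      have : cstk A (resA A a) = algebraMap (kA A) (LaurentSeries (kA A))
          (IsLocalRing.residue A a) := rfl
      rw [← this, ← hr, inv_mul_cancel_right₀ hu']
    rw [e2, e3] at h2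
    exact h2

/-- TASK S44/Old-Mod-Red.  Reduction commutes with the multiplicative Hecke operator.  (`S37.Mod.red_iff`, `redRel_iff_redTo`, `Eis.RedTo.heckeSer`, `coe_heckeF`.) -/
theorem red_heckeF {p ℓ : ℕ} [NeZero ℓ] (hp : p.Prime) (hA : A.LiesOverPrime p) (hℓ : ℓ.Prime)
    (hℓM : ¬ ℓ ∣ M) (hℓp : ℓ ≠ p) (f : FF M) (ft : resF M A) (h : (gaussVFF M A).Red f ft) :
    ∃ h' : heckeSer ℓ (ft : LaurentSeries (kA A)) ∈ resF M A,
      (gaussVFF M A).Red (heckeF M ℓ hℓ hℓM f) ⟨_, h'⟩ := by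
  have h1 : RedTo A (f : LaurentSeries Qb) (ft : LaurentSeries (kA A)) :=
    (redRel_iff_redTo f _).1 (Fermat.Agent.S37.Mod.red_iff.1 h)
  have h2 := Fermat.Agent.S44.Eis.RedTo.heckeSer hp hA hℓ hℓp h1
  have h3 : RedRel M A ((heckeF M ℓ hℓ hℓM f : FF M) : LaurentSeries Qb)
      (heckeSer ℓ (ft : LaurentSeries (kA A))) := (redRel_iff_redTo _ _).2 h2
  exact ⟨⟨_, h3⟩, Fermat.Agent.S37.Mod.red_iff.2 h3⟩

/-! ### the degeneracy maps -/

instance instNeZeroMul (M ℓ : ℕ) [NeZero M] [NeZero ℓ] : NeZero (M * ℓ) :=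
  ⟨Nat.mul_ne_zero (NeZero.ne M) (NeZero.ne ℓ)⟩

omit [NeZero M] in
/-- (helper, Old-Mod-Beta) `V_ℓ` is compatible with `RedRel`. -/
theorem ModBeta_redRel {ℓ : ℕ} [NeZero ℓ] {f : LaurentSeries Qb} {u : LaurentSeries (kA A)}
    (h : RedRel M A f u) : RedRel (M * ℓ) A (Vq Qb ℓ f) (Vq (kA A) ℓ u) := by
  obtain ⟨a, b, ha, hbI, hb, hf, hu⟩ := h
  have hI : ∀ c : LaurentSeries A, Fermat.Agent.S37.Mod.IsI M A c →
      Fermat.Agent.S37.Mod.IsI (M * ℓ) A (qExpand A ℓ c) := by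
    intro c hc
    have h1 := (heckeBetaBar Qb M ℓ ⟨Fermat.Agent.S37.Mod.io A c, hc⟩).2
    rw [Fermat.Agent.S37.Mod.IsI, ModularCurve.coeffMap_qExpand]
    exact h1
  refine ⟨qExpand A ℓ a, qExpand A ℓ b, hI a ha, hI b hbI, ?_, ?_, ?_⟩
  · rw [ModularCurve.coeffMap_qExpand]
    intro h0
    apply hb
    apply qExpand_injective (R := kA A) (N := ℓ)
    rw [h0, map_zero]
  · rw [ModularCurve.coeffMap_qExpand, ModularCurve.coeffMap_qExpand, ← hf, map_mul]
  · rw [ModularCurve.coeffMap_qExpand, ModularCurve.coeffMap_qExpand, ← hu, map_mul]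

/-- (helper, Old-Mod-Beta) `V_ℓ (j(q^M)) = j(q^(M ℓ))`. -/
theorem ModBeta_castS (R : Type*) [CommRing R] {M ℓ : ℕ} [NeZero M] [NeZero ℓ] :
    qExpand R ℓ (Fermat.Agent.Crux.GM.castS R (xh M)) = Fermat.Agent.Crux.GM.castS R (xh (M * ℓ)) := by
  unfold xh
  rw [Fermat.Agent.Crux.GM.castS, Fermat.Agent.Crux.GM.castS, ← ModularCurve.coeffMap_qExpand]
  congr 1
  rw [Fermat.Agent.S28.V, Fermat.Agent.S28.V, qExpand_qExpand]
  exact qExpand_congr (Nat.mul_comm ℓ M) _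

/-- TASK S44/Old-Mod-Beta.  `Compat` for `β = V_ℓ`.
`φt u := ⟨V_ℓ u, _⟩`: if `RedRel M A f u` (witnesses `a, b`) then `RedRel (M ℓ) A (V_ℓ f) (V_ℓ u)` (witnesses `V_ℓ a`, `V_ℓ b`; `coeffMap_qExpand`; `IsI`: `(heckeBetaBar Qb M ℓ ⟨io a, _⟩).2`; `V_ℓ` is injective).
`pre`: `β (xQ hx) = xQ hx'` (`Subtype.ext`; `V_ℓ (V_M J) = V_{M ℓ} J`: `S28.V_jd` / `qExpand_qExpand`), the same for `xk`; `S37.Mod.isPreChart_goodCoord hp hx' hA`. -/
theorem exists_compat_beta {p ℓ n n' : ℕ} [NeZero ℓ] (hp : p.Prime) (hA : A.LiesOverPrime p)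
    (hx : GM.GoodCoord M p (xh M) 1728 n) (hx' : GM.GoodCoord (M * ℓ) p (xh (M * ℓ)) 1728 n') :
    ∃ φt : resF M A → resF (M * ℓ) A,
      (∀ u : resF M A, ((φt u : resF (M * ℓ) A) : LaurentSeries (kA A)) =
        Vq (kA A) ℓ (u : LaurentSeries (kA A))) ∧
      Compat (gaussVFF M A) (gaussVFF (M * ℓ) A) (xQ hx) (xk hx A) (heckeBetaBar Qb M ℓ) φt := by
  refine ⟨fun u => ⟨Vq (kA A) ℓ (u : LaurentSeries (kA A)), ?_⟩, fun _ => rfl, ?_, ?_⟩
  · obtain ⟨f, hf⟩ := u.2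
    exact ⟨_, ModBeta_redRel hf⟩
  · intro f ft h
    rw [Fermat.Agent.S37.Mod.red_iff] at h ⊢
    exact ModBeta_redRel h
  · have h1 : heckeBetaBar Qb M ℓ (xQ hx) = xQ hx' := by
      apply Subtype.ext
      show qExpand Qb ℓ (Fermat.Agent.Crux.GM.castS Qb (xh M)) = Fermat.Agent.Crux.GM.castS Qb (xh (M * ℓ))
      exact ModBeta_castS Qb
    have h2 : (⟨Vq (kA A) ℓ (xk hx A : LaurentSeries (kA A)),
        (by obtain ⟨f, hf⟩ := (xk hx A).2; exact ⟨_, ModBeta_redRel hf⟩)⟩ : resF (M * ℓ) A)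
        = xk hx' A := by
      apply Subtype.ext
      show qExpand (kA A) ℓ (Fermat.Agent.Crux.GM.castS (kA A) (xh M)) = Fermat.Agent.Crux.GM.castS (kA A) (xh (M * ℓ))
      exact ModBeta_castS (kA A)
    rw [h1]
    have h3 := Fermat.Agent.S37.Mod.isPreChart_goodCoord hp hx' hA
    rw [← h2] at h3
    exact h3

/-- comparison of the two ways of writing a degree (generic form of `Crux.GM.relfinrank_bar_eq_finrank`). -/
theorem ModDeg_relfinrank_eq_finrank {K E : Type*} [Field K] [Field E] [Algebra K E]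
    (L : IntermediateField K E) (x : L) :
    (IntermediateField.adjoin K {(x : E)}).relfinrank L =
      Module.finrank (IntermediateField.adjoin K {x}) L := by
  have h1 := IntermediateField.finrank_comap (IntermediateField.adjoin K {(x : E)}) L.val
  rw [IntermediateField.fieldRange_val] at h1
  rw [← h1]
  have h2 : (IntermediateField.adjoin K {(x : E)}).comap L.val = IntermediateField.adjoin K {x} := by
    have h3 : (IntermediateField.adjoin K {x}).map L.val = IntermediateField.adjoin K {(x : E)} := by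
      rw [IntermediateField.adjoin_map, Set.image_singleton]
      rfl
    rw [← h3, IntermediateField.comap_map]
  rw [h2]

open Fermat.Agent.S28 in
/-- `[𝔽 : Ω(j_M)] = [𝔽 : Ω(j_{Mℓ})]` for every field `𝔽` containing both. -/
theorem ModDeg_relfinrank_jd (Ω : Type) [Field Ω] [IsAlgClosed Ω] (M ℓ : ℕ) [NeZero M] [NeZero ℓ]
    (hℓ : ℓ.Prime) (hℓΩ : (ℓ : Ω) ≠ 0) (𝔽 : IntermediateField Ω (LaurentSeries Ω))
    (h1 : jd Ω M ∈ 𝔽) (h2 : jd Ω (M * ℓ) ∈ 𝔽) :
    (IntermediateField.adjoin Ω {jd Ω M}).relfinrank 𝔽 =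
      (IntermediateField.adjoin Ω {jd Ω (M * ℓ)}).relfinrank 𝔽 := by
  have : Fact ℓ.Prime := ⟨hℓ⟩
  obtain ⟨D⟩ := exists_modEqData Ω ℓ
  have hU := V_J_not_mem_adjoin_J Ω ℓ hℓΩ D
  have hlow := relfinrank_low hℓ D hU
  have hhigh := relfinrank_high hℓ D hU
  rw [← IntermediateField.relfinrank_map_map _ _ (Va M), IntermediateField.map_sup, ← jd_one,
    map_adjoin_jd M one_ne_zero, map_adjoin_jd M hℓ.ne_zero, mul_one] at hlow hhigh
  have hA : IntermediateField.adjoin Ω {jd Ω M} ≤ 𝔽 :=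
    (IntermediateField.adjoin_simple_le_iff).2 h1
  have hB : IntermediateField.adjoin Ω {jd Ω (M * ℓ)} ≤ 𝔽 :=
    (IntermediateField.adjoin_simple_le_iff).2 h2
  rw [← IntermediateField.relfinrank_mul_relfinrank le_sup_left (sup_le hA hB), hhigh,
    ← IntermediateField.relfinrank_mul_relfinrank le_sup_left (sup_le hB hA), hlow, sup_comm]

/-- TASK S44/Old-Mod-Deg.  **(DEGα)**  `[k(j_M, ...) ...]`: the residue field at level `M ℓ` has degree `≥ [FF (M ℓ) : ℚ̄(j_M)]` over `k(j̄_M)`.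
Proof (S28 degree theory, valid over every field in which `M ℓ` is invertible).  Over a field `Ω` put `E := Ω(j_M) ⊔ Ω(j_{Mℓ})`.  `S28.relfinrank_low`, `S28.relfinrank_high` transported by `V_M` (`S28.Va`, `IntermediateField.relfinrank_map_map`,
`S28.map_adjoin_jd`) give `[E : Ω(j_M)] = ℓ + 1 = [E : Ω(j_{Mℓ})]`.  Hence for every field `E ≤ 𝔽` : `[𝔽 : Ω(j_M)] = [𝔽 : E] (ℓ+1) = [𝔽 : Ω(j_{Mℓ})]`.  Apply this to `Ω = ℚ̄`, `𝔽 = FF (M ℓ)` and to `Ω = k`, `𝔽 = resF (M ℓ) A`, and use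
`(isPreChart_goodCoord hp hx' hA).deg`. -/
theorem isPreChart_alpha {p ℓ n n' : ℕ} [NeZero ℓ] (hp : p.Prime) (hA : A.LiesOverPrime p)
    (hℓ : ℓ.Prime) (hℓp : ℓ ≠ p) (hx : GM.GoodCoord M p (xh M) 1728 n)
    (hx' : GM.GoodCoord (M * ℓ) p (xh (M * ℓ)) 1728 n')
    (yt' : resF (M * ℓ) A) (hyt' : (yt' : LaurentSeries (kA A)) = (xk hx A : LaurentSeries (kA A))) :
    IsPreChart (gaussVFF (M * ℓ) A) (heckeAlphaBar Qb M ℓ (xQ hx)) yt' := by
  have hpc := Fermat.Agent.S37.Mod.isPreChart_goodCoord hp hx' hA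
  have hcast : ∀ (R : Type) [Field R] (N : ℕ) [NeZero N],
      Fermat.Agent.Crux.GM.castS R (xh N) = Fermat.Agent.S28.jd R N := by
    intro R _ N _
    rw [xh, Fermat.Agent.Crux.GM.CoordJ.castS_VJ, Fermat.Agent.S28.jd_eq]
  refine ⟨?_, ?_, ?_⟩
  · rw [Fermat.Agent.S37.Mod.red_iff, coe_heckeAlphaBar, hyt']
    exact RedRel.mono (dvd_mul_right M ℓ)
      (Fermat.Agent.S37.Mod.red_iff.1 (Fermat.Agent.S37.Mod.red_xQ hx A))
  · have h1 := Fermat.Agent.S37.Mod.transcendental_xk hx A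
    intro h2
    apply h1
    have h3 := h2.algebraMap (A := LaurentSeries (kA A))
    have h4 : IsAlgebraic (kA A) ((xk hx A : resF M A) : LaurentSeries (kA A)) := by
      rw [← hyt']; exact h3
    exact (isAlgebraic_algebraMap_iff (algebraMap (resF M A) (LaurentSeries (kA A))).injective).1 h4
  · have : CharP (kA A) p := Fermat.Agent.S37.Mod.charP_kA hp hA
    have hℓk : (ℓ : kA A) ≠ 0 := by
      intro h0
      rw [CharP.cast_eq_zero_iff (kA A) p ℓ] at h0
      exact hℓp ((Nat.prime_dvd_prime_iff_eq hp hℓ).1 h0).symm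
    have hℓQ : (ℓ : Qb) ≠ 0 := Nat.cast_ne_zero.2 hℓ.ne_zero
    -- characteristic zero
    have e1 : Module.finrank (IntermediateField.adjoin Qb {heckeAlphaBar Qb M ℓ (xQ hx)}) (FF (M * ℓ))
        = Module.finrank (IntermediateField.adjoin Qb {xQ hx'}) (FF (M * ℓ)) := by
      rw [← ModDeg_relfinrank_eq_finrank, ← ModDeg_relfinrank_eq_finrank, coe_heckeAlphaBar,
        Fermat.Agent.S37.Mod.coe_xQ, Fermat.Agent.S37.Mod.coe_xQ, hcast, hcast]
      refine ModDeg_relfinrank_jd Qb M ℓ hℓ hℓQ _ ?_ ?_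
      · rw [← hcast, ← Fermat.Agent.S37.Mod.coe_xQ hx, ← coe_heckeAlphaBar (N := M) (ℓ := ℓ)]
        exact (heckeAlphaBar Qb M ℓ (xQ hx)).2
      · rw [← hcast, ← Fermat.Agent.S37.Mod.coe_xQ hx']
        exact (xQ hx').2
    have e2 : Module.finrank (IntermediateField.adjoin (kA A) {yt'}) (resF (M * ℓ) A)
        = Module.finrank (IntermediateField.adjoin (kA A) {xk hx' A}) (resF (M * ℓ) A) := by
      rw [← ModDeg_relfinrank_eq_finrank, ← ModDeg_relfinrank_eq_finrank, hyt',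
        Fermat.Agent.S37.Mod.coe_xk, Fermat.Agent.S37.Mod.coe_xk, hcast, hcast]
      refine ModDeg_relfinrank_jd (kA A) M ℓ hℓ hℓk _ ?_ ?_
      · rw [← hcast, ← Fermat.Agent.S37.Mod.coe_xk hx A, ← hyt']
        exact yt'.2
      · rw [← hcast, ← Fermat.Agent.S37.Mod.coe_xk hx' A]
        exact (xk hx' A).2
    rw [e1, e2]
    exact hpc.deg

/-- TASK S44/Old-Mod-Alpha.  `Compat` for `α` = inclusion.  (`φt u := ⟨u, _⟩` by `S37.Mod.RedRel.mono (dvd_mul_right M ℓ)`; `pre` = `isPreChart_alpha`.) -/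
theorem exists_compat_alpha {p ℓ n n' : ℕ} [NeZero ℓ] (hp : p.Prime) (hA : A.LiesOverPrime p)
    (hℓ : ℓ.Prime) (hℓp : ℓ ≠ p) (hx : GM.GoodCoord M p (xh M) 1728 n)
    (hx' : GM.GoodCoord (M * ℓ) p (xh (M * ℓ)) 1728 n') :
    ∃ φt : resF M A → resF (M * ℓ) A,
      (∀ u : resF M A, ((φt u : resF (M * ℓ) A) : LaurentSeries (kA A)) =
        (u : LaurentSeries (kA A))) ∧
      Compat (gaussVFF M A) (gaussVFF (M * ℓ) A) (xQ hx) (xk hx A) (heckeAlphaBar Qb M ℓ) φt := by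
  have hmem : ∀ u : resF M A, (u : LaurentSeries (kA A)) ∈ resF (M * ℓ) A := by
    rintro ⟨u, f, hf⟩
    exact ⟨f, hf.mono (dvd_mul_right M ℓ)⟩
  refine ⟨fun u => ⟨u, hmem u⟩, fun _ => rfl, ?_, ?_⟩
  · intro f ft h
    rw [Fermat.Agent.S37.Mod.red_iff] at h ⊢
    rw [coe_heckeAlphaBar]
    exact h.mono (dvd_mul_right M ℓ)
  · exact isPreChart_alpha hp hA hℓ hℓp hx hx' _ rfl

end

end Fermat.Agent.S44.Old
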