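import Fermat.Agent.S44.Old.Corr

/-!
# S44 / Old / Spec : the specialisation map `sp : Pic⁰(F) → Pic(Ft)` and its compatibility with correspondences

* `sp hG`                        : induced by `Geo0.rD hG`;
* `sp_correspondence_eq_zero`    : `ker sp` is stable under correspondences ((L3) on classes);
* `exists_class`                 : (B1) a function `g ∈ Ftˣ` with `p ∣ div g` gives `z ∈ Pic⁰(F)` with `p • sp z = 0`, and `sp z = 0` iff `g = c h^p`;
* `sp_correspondence_of_eigen`   : (B4) `T̄ g = c g^a h^p  ⟹  sp (T z) = a • sp z`.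
-/

set_option autoImplicit false
set_option linter.unusedSectionVars false

namespace Fermat.Agent.S44.Old

open AlgebraicCurve Fermat.Agent.S26 Fermat.Agent.S37.Red Fermat.Agent.S19.Geo0 Polynomial IntermediateField

variable {K k : Type*} [Field K] [Field k] {A : ValuationSubring K} {π : A →+* k}
variable {F Ft : Type*} [Field F] [Field Ft] [Algebra K F] [Algebra k Ft]
variable {F' Ft' : Type*} [Field F'] [Field Ft'] [Algebra K F'] [Algebra k Ft']
variable [IsAlgClosed K] [FF1 K F] [IsAlgClosed k] [FF1 k Ft] [FF1 K F'] [FF1 k Ft']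
variable {V : VFF A π F Ft} {y : F} {yt : Ft} {V' : VFF A π F' Ft'} {y' : F'} {yt' : Ft'}

/-- the specialisation map on divisor classes. -/
noncomputable def sp (hG : Good V y yt) : Pic0 K F →+ Pic k Ft :=
  QuotientAddGroup.lift _
    ((QuotientAddGroup.mk' (Divisor.principal (K := k) (F := Ft))).comp
      ((rD hG).comp (Divisor.degZero (K := K) (F := F)).subtype))
    (by
      rintro ⟨D, hD0⟩ hD
      rw [AddSubgroup.mem_addSubgroupOf] at hD
      exact (QuotientAddGroup.eq_zero_iff _).2 (rD_mem_principal hG hD))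

theorem sp_mk (hG : Good V y yt) (D : Divisor.degZero (K := K) (F := F)) :
    sp hG (Pic0.mk D) = QuotientAddGroup.mk (rD hG (D : Divisor K F)) := rfl

theorem sp_mk_eq_zero_iff (hG : Good V y yt) (D : Divisor.degZero (K := K) (F := F)) :
    sp hG (Pic0.mk D) = 0 ↔ rD hG (D : Divisor K F) ∈ Divisor.principal (K := k) (F := Ft) := by
  rw [sp_mk]
  exact QuotientAddGroup.eq_zero_iff _

/-- TASK S44/Old-Spec-a.  A divisor with principal reduction is a principal divisor plus a divisor with reduction `0`.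
(`rD D = div ht`, `ht ≠ 0`; lift `ht` to `H` (`VFF.exists_lift`), `H ≠ 0` (`VFF.Red.ne_zero`); `rD (divisorOf H) = divisorOf ht` (`rD_divisorOf`).) -/
theorem exists_sub_divisorOf (hG : Good V y yt) {D : Divisor K F}
    (hD : rD hG D ∈ Divisor.principal (K := k) (F := Ft)) :
    ∃ H : F, H ≠ 0 ∧ rD hG (D - divisorOf H) = 0 := by
  obtain ⟨ht, hht, hDt⟩ := hD
  obtain ⟨H, hH⟩ := V.exists_lift ht
  refine ⟨H, hH.ne_zero hht, ?_⟩
  rw [map_sub, rD_divisorOf hG hH hht, sub_eq_zero]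
  ext Q
  rw [hDt Q, divisorOf_apply]

variable [HasPrincipalDivisors K F']
variable {φ ψ : F →ₐ[K] F'} {φt ψt : Ft → Ft'}

/-- TASK S44/Old-Spec-a.  `ker sp` is stable under correspondences.
(`x = mk D`; `exists_sub_divisorOf`; `T D = T (D - div H) + T (div H)`; `rD_correspondence_eq_zero`; `Divisor.correspondence_mem_principal` + `rD_mem_principal`; `Pic0.correspondence_mk`, `Pic0.coe_degZeroCorrespondence`.) -/
theorem sp_correspondence_eq_zero (hG : Good V y yt) (hG' : Good V' y' yt')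
    (hc : Compat V V' y yt φ φt) (hd : Compat V V' y yt ψ ψt) (hφ : φ.toRingHom.IsIntegral)
    (hψ : ψ.toRingHom.IsIntegral) (hFI : FundamentalIdentityAlong K φ hφ) (hfin : FiniteAlong K ψ)
    (hN : NormFormulaAlong K ψ hfin) (x : Pic0 K F) (hx : sp hG x = 0) :
    sp hG (Pic0.correspondence φ ψ hφ hψ hFI hfin hN x) = 0 := by
  obtain ⟨D, rfl⟩ := Pic0.mk_surjective x
  rw [sp_mk_eq_zero_iff] at hx
  rw [Pic0.correspondence_mk, sp_mk_eq_zero_iff, Pic0.coe_degZeroCorrespondence]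
  obtain ⟨H, hH0, hH⟩ := exists_sub_divisorOf hG hx
  have h1 : ((D : Divisor K F)) = ((D : Divisor K F) - divisorOf H) + divisorOf H := by abel
  rw [h1, map_add, map_add, rD_correspondence_eq_zero hG hG' hc hd hφ hψ hH, zero_add]
  refine rD_mem_principal hG (Divisor.correspondence_mem_principal φ ψ hφ hψ hfin hN ?_)
  exact ⟨H, hH0, fun v => divisorOf_apply H v⟩

/-- TASK S44/Old-Spec-b.  **(B1)**.  `D₀` with `rD D₀ = E`, `E Q := ord_Q g / p` (a `Finsupp`: e.g. `(divisorOf g).mapRange (· / p) _`), `rD_surjective`; `p * deg D₀ = deg (rD (p D₀)) = deg (div g) = 0`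
(`degree_rD`; degree of a principal divisor: `S26.degree_divisorOf` or `LiftV_degree_of_mem_principal`). -/
theorem exists_class (hG : Good V y yt) {p : ℕ} (hp : p ≠ 0) {g : Ft} (hg : g ≠ 0)
    (hdiv : ∀ Q : Place k Ft, (p : ℤ) ∣ Q.ord g) :
    ∃ D : Divisor.degZero (K := K) (F := F), p • rD hG (D : Divisor K F) = divisorOf g := by
  classical
  have hE : ∃ E : Divisor k Ft, p • E = divisorOf g := by
    refine ⟨(divisorOf (Ω := k) g).mapRange (fun n => n / (p : ℤ)) (by simp), ?_⟩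
    ext Q
    rw [Finsupp.smul_apply, Finsupp.mapRange_apply, divisorOf_apply, nsmul_eq_mul,
      Int.mul_ediv_cancel' (hdiv Q)]
  obtain ⟨E, hE⟩ := hE
  obtain ⟨D₀, hD₀⟩ := rD_surjective hG E
  have hdeg : Divisor.degree D₀ = 0 := by
    have h1 := congrArg Divisor.degree hE
    rw [map_nsmul, degree_divisorOf, ← hD₀, degree_rD, nsmul_eq_mul] at h1
    rcases mul_eq_zero.1 h1 with h | h
    · exact absurd (by exact_mod_cast h) hp
    · exact h
  exact ⟨⟨D₀, hdeg⟩, by rw [hD₀]; exact hE⟩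

/-- TASK S44/Old-Spec-b.  `p • sp z = 0`. -/
theorem nsmul_sp_eq_zero (hG : Good V y yt) {p : ℕ} {g : Ft} (hg : g ≠ 0)
    {D : Divisor.degZero (K := K) (F := F)} (hD : p • rD hG (D : Divisor K F) = divisorOf g) :
    p • sp hG (Pic0.mk D) = 0 := by
  rw [sp_mk, ← QuotientAddGroup.mk_nsmul, hD]
  exact (QuotientAddGroup.eq_zero_iff _).2 ⟨g, hg, fun v => divisorOf_apply g v⟩

/-- TASK S44/Old-Spec-b.  `sp z = 0 ⟹ g = c h^p`.
(`rD D = div h`; `div (g / h^p) = 0`; a function without zeros and poles is a constant: `S32` `KJ_const`, or `S26`: a nonconstant (= transcendental, `k` algebraically closed) function has a pole, `degree_poleDivisor`.) -/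
theorem eq_const_mul_pow_of_sp_eq_zero (hG : Good V y yt) {p : ℕ} {g : Ft} (hg : g ≠ 0)
    {D : Divisor.degZero (K := K) (F := F)} (hD : p • rD hG (D : Divisor K F) = divisorOf g)
    (h0 : sp hG (Pic0.mk D) = 0) :
    ∃ (c : k) (h : Ft), g = algebraMap k Ft c * h ^ p := by
  rw [sp_mk_eq_zero_iff] at h0
  obtain ⟨h, hh0, hh⟩ := h0
  have hu : ∀ Q : Place k Ft, Q.ord (g * (h ^ p)⁻¹) = 0 := by
    intro Q
    have h1 := DFunLike.congr_fun hD Q
    rw [Finsupp.smul_apply, hh Q, divisorOf_apply, nsmul_eq_mul] at h1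
    rw [Q.ord_mul hg (inv_ne_zero (pow_ne_zero _ hh0)), Q.ord_inv, ← zpow_natCast, Q.ord_zpow,
      ← h1]
    ring
  have hc : ∃ c : k, algebraMap k Ft c = g * (h ^ p)⁻¹ := by
    by_contra hc
    have ht : Transcendental k (g * (h ^ p)⁻¹) := fun halg =>
      hc (Fermat.Agent.S24.FF.DegOne.exists_algebraMap_eq_of_isAlgebraic k halg)
    obtain ⟨v, hv⟩ := exists_ord_pos ht
    rw [hu v] at hv
    exact lt_irrefl _ hv
  obtain ⟨c, hc⟩ := hc
  refine ⟨c, h, ?_⟩
  rw [hc]
  field_simp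

/-- TASK S44/Old-Spec-c.  **(B4)**.  `Tf : F → F` with `div (Tf f) = T (div f)` and `red (Tf f) = Tt (red f)`; `Tt g = c g^a h^p`.  Then `sp (T z) = a • sp z`.
Proof.  `Φ` a lift of `g`; `E₀ := div Φ - p D`, `rD E₀ = 0`.  `p T D = div (Tf Φ) - T E₀`, so `p rD (T D) = div (Tt g) - 0 = a div g + p div h = p (a rD D + div h)` (`rD_correspondence_eq_zero`, `rD_divisorOf`; `c ≠ 0`, `h ≠ 0` because `Tt g ≠ 0`:
`Tf Φ ≠ 0` ... use `hTt0`).  `Divisor k Ft` is torsion free. -/
theorem sp_correspondence_of_eigen (hG : Good V y yt) (hG' : Good V' y' yt')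
    (hc : Compat V V' y yt φ φt) (hd : Compat V V' y yt ψ ψt) (hφ : φ.toRingHom.IsIntegral)
    (hψ : ψ.toRingHom.IsIntegral) (hFI : FundamentalIdentityAlong K φ hφ) (hfin : FiniteAlong K ψ)
    (hN : NormFormulaAlong K ψ hfin)
    (Tf : F → F) (Tt : Ft → Ft)
    (hTf : ∀ f : F, f ≠ 0 → Tf f ≠ 0 ∧
      Divisor.correspondence φ ψ hφ hψ (divisorOf f) = divisorOf (Tf f))
    (hTt : ∀ (f : F) (ft : Ft), V.Red f ft → V.Red (Tf f) (Tt ft))
    {p : ℕ} (hp : p ≠ 0) {g : Ft} (hg : g ≠ 0) (hTt0 : Tt g ≠ 0)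
    {D : Divisor.degZero (K := K) (F := F)} (hD : p • rD hG (D : Divisor K F) = divisorOf g)
    {a : ℤ} {c : k} {h : Ft} (heig : Tt g = algebraMap k Ft c * g ^ a * h ^ p) :
    sp hG (Pic0.correspondence φ ψ hφ hψ hFI hfin hN (Pic0.mk D)) = a • sp hG (Pic0.mk D) := by
  obtain ⟨Φ, hΦ⟩ := V.exists_lift g
  have hΦ0 : Φ ≠ 0 := hΦ.ne_zero hg
  -- `c`, `h` are nonzero
  have hc0 : algebraMap k Ft c ≠ 0 := by
    intro h0
    rw [h0, zero_mul, zero_mul] at heig
    exact hTt0 heig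
  have hh0 : h ≠ 0 := by
    rintro rfl
    rw [zero_pow hp, mul_zero] at heig
    exact hTt0 heig
  -- the divisor of `Tt g`
  have hdivT : divisorOf (Ω := k) (Tt g) = a • divisorOf g + p • divisorOf h := by
    ext Q
    rw [heig, divisorOf_apply, Q.ord_mul (mul_ne_zero hc0 (zpow_ne_zero _ hg)) (pow_ne_zero _ hh0),
      Q.ord_mul hc0 (zpow_ne_zero _ hg), Fermat.Agent.S24.FF.ord_algebraMap, Q.ord_zpow,
      ← zpow_natCast, Q.ord_zpow, Finsupp.add_apply, Finsupp.smul_apply, Finsupp.smul_apply,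
      divisorOf_apply, divisorOf_apply]
    simp
  -- `E₀`
  have hE₀ : rD hG (divisorOf Φ - p • (D : Divisor K F)) = 0 := by
    rw [map_sub, map_nsmul, rD_divisorOf hG hΦ hg, hD, sub_self]
  have hTE₀ := rD_correspondence_eq_zero hG hG' hc hd hφ hψ hE₀
  rw [map_sub, map_sub, map_nsmul, map_nsmul, (hTf Φ hΦ0).2,
    rD_divisorOf hG (hTt Φ g hΦ) hTt0, hdivT, sub_eq_zero] at hTE₀
  have hkey : rD hG (Divisor.correspondence φ ψ hφ hψ (D : Divisor K F))
      = a • rD hG (D : Divisor K F) + divisorOf h := by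
    have h1 : p • rD hG (Divisor.correspondence φ ψ hφ hψ (D : Divisor K F))
        = p • (a • rD hG (D : Divisor K F) + divisorOf h) := by
      rw [← hTE₀, smul_add, ← hD, smul_comm]
    ext Q
    have h2 := DFunLike.congr_fun h1 Q
    rw [Finsupp.smul_apply, Finsupp.smul_apply, nsmul_eq_mul, nsmul_eq_mul] at h2
    exact mul_left_cancel₀ (by exact_mod_cast hp) h2
  rw [Pic0.correspondence_mk, sp_mk, sp_mk, Pic0.coe_degZeroCorrespondence, hkey,
    QuotientAddGroup.mk_add, QuotientAddGroup.mk_zsmul]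
  have h3 : ((divisorOf h : Divisor k Ft) : Pic k Ft) = 0 :=
    (QuotientAddGroup.eq_zero_iff _).2 ⟨h, hh0, fun Q => divisorOf_apply h Q⟩
  rw [h3, add_zero]

end Fermat.Agent.S44.Old
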